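import Fermat.Agent.RT.Lift.AtP.Instances
import Fermat.Agent.RT.Assembly.Entries
import Fermat.Agent.RT.Glue.Transfer
import Fermat.Agent.RT.Lift.AtP.Strict
import Fermat.Agent.NewformLocal.Separation
import Fermat.Agent.RT.Glue.Inertia

/-!
# Strict ordinarity over the algebra of entries

A matrix representation over a ring inside the Hecke algebra with the traces and determinants of a
glued representation all of whose points are new at `p` is strictly ordinary at `p`.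
-/

set_option autoImplicit false
set_option synthInstance.maxHeartbeats 400000
set_option linter.unusedSectionVars false
set_option linter.style.haveILetI false

noncomputable section

namespace Fermat.Agent.RT.Lift.Lower

open IsLocalRing Module Polynomial CongruenceSubgroup ModularFormClass
open scoped TensorProduct
open Fermat.Agent.GaloisReps Fermat.Agent.RT.Glue
open Arith (QBar GQ)

section Residual

/-- Ordinarity passes to an equivalent representation. -/
theorem isOrdinaryAt_of_isEquiv {A : Type} [CommRing A] [IsLocalRing A] {p : ℕ}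
    {ρ₁ ρ₂ : GaloisRepAdic A} (he : ρ₁.IsEquiv ρ₂) (h : ρ₁.IsOrdinaryAt p) :
    ρ₂.IsOrdinaryAt p := by
  obtain ⟨e⟩ := he
  intro P hP
  obtain ⟨L, ⟨b, hb⟩, hD, hI⟩ := h P hP
  refine ⟨L.map e.toLinearEquiv.toLinearMap, ⟨b.map e.toLinearEquiv, ?_⟩, ?_, ?_⟩
  · rw [hb, Submodule.map_span, Set.image_singleton]
    rfl
  · rintro σ hσ _ ⟨v, hv, rfl⟩
    exact ⟨_, hD σ hσ v hv, e.map_apply σ v⟩
  · intro σ hσ w
    obtain ⟨v, rfl⟩ := e.toLinearEquiv.surjective w
    refine ⟨_, hI σ hσ v, ?_⟩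
    exact (map_sub e.toLinearEquiv _ v).trans (congrArg (· - _) (e.map_apply σ v))

/-- Ordinarity passes to a base change. -/
theorem isOrdinaryAt_adicBaseChange {A B : Type} [CommRing A] [IsLocalRing A] [CommRing B]
    [IsLocalRing B] {p : ℕ} (φ : A →+* B) (hφ : IsLocalHom φ) {ρ : GaloisRepAdic A}
    (h : ρ.IsOrdinaryAt p) : (ρ.baseChangeAlong φ hφ).IsOrdinaryAt p := by
  letI := φ.toAlgebra
  intro P hP
  obtain ⟨L, ⟨b, hb⟩, hD, hI⟩ := h P hP
  let b' : Basis (Fin 2) B (B ⊗[A] ρ.V) := b.baseChange B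
  have hb'0 : b' 0 = (1 : B) ⊗ₜ[A] b 0 := Basis.baseChange_apply _ _ _
  have hsmul : ∀ (a : A) (c : B) (w : ρ.V), c ⊗ₜ[A] (a • w) = φ a • (c ⊗ₜ[A] w) := fun a c w => by
    rw [TensorProduct.tmul_smul]
    exact (algebraMap_smul B a (c ⊗ₜ[A] w)).symm
  have hmem : ∀ (c : B) (w : ρ.V), w ∈ L → c ⊗ₜ[A] w ∈ B ∙ b' 0 := fun c w hw => by
    rw [hb] at hw
    obtain ⟨a, rfl⟩ := Submodule.mem_span_singleton.mp hw
    refine Submodule.mem_span_singleton.mpr ⟨φ a * c, ?_⟩
    rw [hb'0, hsmul, mul_smul, TensorProduct.smul_tmul', smul_eq_mul, mul_one]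
  have hb0 : b 0 ∈ L := hb ▸ Submodule.mem_span_singleton_self _
  have hD' : ∀ σ ∈ P.decompositionSubgroup ℚ, ∀ v ∈ B ∙ b' 0,
      (ρ.ρ σ).baseChange B v ∈ B ∙ b' 0 := by
    intro σ hσ v hv
    obtain ⟨c, rfl⟩ := Submodule.mem_span_singleton.mp hv
    rw [map_smul]
    refine Submodule.smul_mem _ c ?_
    rw [hb'0, LinearMap.baseChange_tmul, ← hb'0]
    exact hmem 1 _ (hD σ hσ _ hb0)
  have hI' : ∀ σ ∈ P.inertiaSubgroupIn ℚ, ∀ v, (ρ.ρ σ).baseChange B v - v ∈ B ∙ b' 0 := by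
    intro σ hσ v
    induction v using TensorProduct.induction_on with
    | zero => rw [LinearMap.map_zero, sub_zero]; exact zero_mem _
    | tmul c w =>
      rw [LinearMap.baseChange_tmul, ← TensorProduct.tmul_sub]
      exact hmem c _ (hI σ hσ w)
    | add x y hx hy => rw [map_add, add_sub_add_comm]; exact add_mem hx hy
  exact ⟨B ∙ b' 0, ⟨b', rfl⟩, hD', hI'⟩

variable {k : Type} [Field k]

/-- Residual ordinarity of a matrix representation with prescribed residual matrices. -/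
theorem isOrdinaryAt_residual_of_matrices {A : Type} [CommRing A] [IsLocalRing A] {p : ℕ}
    (f : k →+* ResidueField A) {ρbar : ResidualGaloisRep k} (bb : Basis (Fin 2) k ρbar.V)
    {R : GQ →* Deform.M2 A} (hR : Deform.IsCont R)
    (hmat : ∀ σ, (R σ).map (residue A) = (LinearMap.toMatrix bb bb (ρbar.ρ σ)).map f)
    (h : (GaloisRepAdic.ofResidualGaloisRep ρbar).IsOrdinaryAt p) :
    (GaloisRepAdic.ofResidualGaloisRep (Deform.toRep R hR).residual).IsOrdinaryAt p := by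
  obtain ⟨B₁, hB₁⟩ := toMatrix_residual_toRep hR
  obtain ⟨B₂, hB₂⟩ := toMatrix_baseChangeAlong f ρbar bb
  obtain ⟨e⟩ := isEquiv_of_toMatrix B₂ B₁ fun σ => by rw [hB₁, hB₂, hmat]
  have hf : IsLocalHom f := ⟨fun a ha => isUnit_iff_ne_zero.2 fun h0 => by
    rw [h0, map_zero] at ha; exact not_isUnit_zero ha⟩
  exact isOrdinaryAt_of_isEquiv
    (ρ₁ := (GaloisRepAdic.ofResidualGaloisRep ρbar).baseChangeAlong f hf)
    (ρ₂ := GaloisRepAdic.ofResidualGaloisRep (Deform.toRep R hR).residual)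
    ⟨{ toLinearEquiv := e.toLinearEquiv, map_apply := e.map_apply }⟩
    (isOrdinaryAt_adicBaseChange f hf h)

end Residual

variable {O : Type} [CommRing O] [IsDomain O] [IsDiscreteValuationRing O]
  [IsAdicComplete (maximalIdeal O) O] [Finite (ResidueField O)] [CharZero O]
  {p : ℕ} [Fact p.Prime]
  {L : ℕ} [NeZero L] {Δ : Type} [CommGroup Δ] [Finite Δ] {ψ : (ZMod L)ˣ →* Δ} {S : Finset ℕ}
  {abar : ℕ → ResidueField O}
  {H : HeckeModule L ψ S abar} {hS : ∀ q : ℕ, q.Prime → q ∣ L → q ∈ S}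
  [IsLocalRing H.algebra] {D : ∀ (M : ℕ) [NeZero M], HeckeGaloisModel M p}
  {pt : ∀ θ : H.algebra →ₐ[O] KBar O, Point (p := p) H hS θ.toRingHom}

set_option maxHeartbeats 1000000 in
/-- **Strict ordinarity over a ring inside the Hecke algebra.** -/
theorem isStrictOrdinaryAt_toRep (G : Glued D pt) (hp3 : 3 ≤ p) (hpS : p ∈ S) (hpL : p ∣ L)
    (hψ : ∀ u : (ZMod L)ˣ, ((u : ZMod L).cast : ZMod (L / p)) = 1 → ψ u = 1)
    (hnew : ∀ θ, p ∣ (pt θ).M)
    {T : Type} [CommRing T] [IsLocalRing T] [IsNoetherianRing T] [Algebra O T]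
    (ι : T →ₐ[O] H.algebra) (hι : Function.Injective ι) (hιl : IsLocalHom (ι : T →+* H.algebra))
    {R : GQ →* Deform.M2 T} (hR : Deform.IsCont R)
    (htr : ∀ σ, ι (R σ).trace = LinearMap.trace H.algebra G.rep.V (G.rep.ρ σ))
    (hdetR : ∀ σ, ι (R σ).det = LinearMap.det (G.rep.ρ σ))
    (hdet : (Deform.toRep R hR).DetIsCyclotomic p)
    (hres : (GaloisRepAdic.ofResidualGaloisRep (Deform.toRep R hR).residual).IsOrdinaryAt p) :
    (Deform.toRep R hR).IsStrictOrdinaryAt p := by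
  classical
  have hpr : p.Prime := Fact.out
  set M₀ : ℕ := 4 * (L ^ 2 / p ^ (L ^ 2).factorization p) with hM₀
  have hL2 : L ^ 2 ≠ 0 := pow_ne_zero 2 (NeZero.ne L)
  have hord : ¬ p ∣ L ^ 2 / p ^ (L ^ 2).factorization p := Nat.not_dvd_ordCompl hpr hL2
  have h4 : 4 ∣ M₀ := dvd_mul_right 4 _
  have hpM : ¬ p ∣ M₀ := fun h => (hpr.dvd_mul.mp h).elim (fun h' => by
    have := (Nat.prime_dvd_prime_iff_eq hpr Nat.prime_two).mp
      (hpr.dvd_of_dvd_pow (show p ∣ 2 ^ 2 from h'))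
    omega) hord
  have : NeZero M₀ := ⟨mul_ne_zero (by norm_num) (Nat.ordCompl_pos p hL2).ne'⟩
  have : NeZero (p * M₀) := ⟨mul_ne_zero hpr.ne_zero (NeZero.ne M₀)⟩
  have hsq : ∀ θ, ¬ p ^ 2 ∣ (pt θ).M := fun θ =>
    (pt θ).sq_not_dvd hpr hpL fun u hu => by rw [hψ u hu, map_one, map_one]
  have hdvd : ∀ θ, (pt θ).M ∣ p * M₀ := fun θ => by
    obtain ⟨M', hM'⟩ := hnew θ
    have hp' : ¬ p ∣ M' := fun h => hsq θ (by rw [hM', pow_two]; exact mul_dvd_mul_left p h)
    rw [hM']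
    exact mul_dvd_mul_left p (dvd_mul_of_dvd_right
      (Nat.dvd_ordCompl_of_dvd_not_dvd ((dvd_mul_left M' p).trans (hM' ▸ (pt θ).dvd)) hp') 4)
  set S' : Finset ℕ := S ∪ (p * M₀).primeFactors
  have hNS : ∀ v : ℕ, v.Prime → v ∣ p * M₀ → v ∈ S' := fun v hv h =>
    Finset.mem_union_right _ (Nat.mem_primeFactors.mpr ⟨hv, h, NeZero.ne _⟩)
  obtain ⟨π, hπT, hπθ⟩ := AtP.exists_levelHom (pt := pt) (N := p * M₀) (S' := S')
    Finset.subset_union_left hNS hdvd
  -- the values of `π` lie in `T`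
  have hrange : ∀ t, π t ∈ (ι : T →+* H.algebra).range := by
    rintro ⟨t, ht⟩
    induction ht using Algebra.adjoin_induction with
    | mem x hx =>
      rcases hx with ⟨ℓ, hℓ, hℓN, hℓS, rfl⟩ | ⟨v, hvN, hv, hvS, rfl⟩
      · obtain ⟨A, hA⟩ := Arith.exists_liesOverPrime hℓ
        obtain ⟨s, hs⟩ := Arith.exists_isFrobeniusAt hA hℓ
        refine ⟨(R s).trace, (htr s).trans (Eq.trans ?_ (hπT ℓ hℓ hℓN hℓS).symm)⟩
        have h := G.charpoly_frobenius hpS hℓ (fun h => hℓS (Finset.mem_union_left _ h)) hA hs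
        rw [G.trace_rep, Matrix.trace_eq_neg_charpoly_coeff, ← G.charpoly_rep, h]
        simp [coeff_X_pow]
      · exact absurd (hNS v hv hvN) hvS
    | algebraMap z =>
      exact ⟨(z : T), by
        rw [map_intCast, show (⟨algebraMap ℤ _ z, Subalgebra.algebraMap_mem _ z⟩ :
          CuspForm.heckeAlgebra (p * M₀) 2 (↑S' : Set ℕ)) = (z : _) from Subtype.ext (by simp),
          map_intCast]⟩
    | add a b _ _ iha ihb =>
      obtain ⟨x, hx⟩ := iha
      obtain ⟨y, hy⟩ := ihb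
      exact ⟨x + y, by rw [map_add, hx, hy, ← map_add]; rfl⟩
    | mul a b _ _ iha ihb =>
      obtain ⟨x, hx⟩ := iha
      obtain ⟨y, hy⟩ := ihb
      exact ⟨x * y, by rw [map_mul, hx, hy, ← map_mul]; rfl⟩
  choose πT hπT' using hrange
  have hπι : ∀ t, ι (πT t) = π t := hπT'
  let π' : CuspForm.heckeAlgebra (p * M₀) 2 (↑S' : Set ℕ) →+* T :=
    { toFun := πT
      map_one' := hι (by rw [hπι, map_one, map_one])
      map_mul' := fun a b => hι (by rw [hπι, map_mul, map_mul ι, hπι, hπι])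
      map_zero' := hι (by rw [hπι, map_zero, map_zero])
      map_add' := fun a b => hι (by rw [hπι, map_add, map_add ι, hπι, hπι]) }
  have hch : ∀ σ, (LinearMap.charpoly ((Deform.toRep R hR).ρ σ)).map (ι : T →+* H.algebra) =
      LinearMap.charpoly (G.rep.ρ σ) := fun σ => by
    have e : LinearMap.charpoly ((Deform.toRep R hR).ρ σ) = (R σ).charpoly := by
      let b : Basis (Fin 2) T (Deform.toRep R hR).V := Pi.basisFun T (Fin 2)
      rw [← LinearMap.charpoly_toMatrix ((Deform.toRep R hR).ρ σ) b]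
      refine congrArg Matrix.charpoly ?_
      show LinearMap.toMatrix (Pi.basisFun T (Fin 2)) (Pi.basisFun T (Fin 2))
        (Matrix.toLinAlgEquiv' (R σ)) = _
      rw [LinearMap.toMatrix_eq_toMatrix']
      exact LinearMap.toMatrix'_toLin' (R σ)
    rw [e, G.charpoly_rep, Matrix.charpoly_fin_two, Matrix.charpoly_fin_two]
    simp [htr, hdetR, G.trace_rep, G.det_rep]
  have hfrob : FrobCharpoly (Deform.toRep R hR) π' := fun ℓ hℓ hℓN hℓS A hA σ hσ => by
    refine Polynomial.map_injective (ι : T →+* H.algebra) hι ?_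
    rw [hch, G.charpoly_frobenius hpS hℓ (fun h => hℓS (Finset.mem_union_left _ h)) hA hσ]
    have e : (ι : T →+* H.algebra) (π' (CuspForm.heckeAlgebra.T hℓ hℓN hℓS)) =
        sA H hS hℓ (fun h => hℓS (Finset.mem_union_left _ h)) :=
      (hπι _).trans (hπT ℓ hℓ hℓN hℓS)
    simp [e]
  have habs : (Deform.toRep R hR).residual.IsAbsolutelyIrreducible := by
    obtain ⟨k, g, h, hu⟩ := G.exists_trace_commutator
    refine isAbsolutelyIrreducible_of_trace_commutator _ ⟨k, g, h, ?_⟩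
    refine (isUnit_map_iff (ι : T →+* H.algebra) _).1 ?_
    have e : ∀ σ, (ι : T →+* H.algebra) (LinearMap.trace T _ ((Deform.toRep R hR).ρ σ)) =
        LinearMap.trace H.algebra G.rep.V (G.rep.ρ σ) := fun σ => by
      rw [← htr σ]
      refine congrArg ι ?_
      show LinearMap.trace T (Fin 2 → T) (Matrix.toLin' (R σ)) = _
      exact Matrix.trace_toLin'_eq (R σ)
    rwa [map_sub, e, e]
  refine AtP.isStrictOrdinaryAt_of_new hp3 h4 hpM (fun K _ => AtP.congruence K p)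
    (fun P hP => AtP.noFlatHom hP hp3 h4 hpM)
    (Finset.mem_union_left _ hpS) hNS _ habs hdet π' hfrob hres fun c hc => hι ?_
  rw [map_zero]
  refine eq_zero_of_forall_point fun θ => ?_
  obtain ⟨χ, hχT, hχ⟩ := hπθ θ
  obtain ⟨t, ht, htχ⟩ := NewformLocal.exists_kills_of_not_occurs (dvd_mul_left M₀ p) hNS χ
    fun h hh => by
      obtain ⟨ℓ, hℓ, hℓT, hne⟩ := NewformLocal.exists_qCoeff_ne_of_not_dvd_level hpr (hnew θ)
        (hsq θ) hpM (pt θ).isNewform hh S'
      exact ⟨ℓ, hℓ, fun hd => hℓT (hNS ℓ hℓ hd), hℓT, by rw [hχT]; exact hne.symm⟩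
  have h1 := congrArg (fun x => θ (ι x)) (hc t ht)
  simp only [map_mul, map_zero, mul_eq_zero] at h1
  refine h1.resolve_left fun h0 => htχ ?_
  rw [← hχ, ← hπι, show θ (ι (πT t)) = 0 from h0, map_zero]

end Fermat.Agent.RT.Lift.Lower

end
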