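import Fermat.Agent.RT.Assembly.Residual
import Fermat.Agent.RT.Lift.Residual
import Fermat.Agent.EC.Rep.TWHypothesis

/-!
# The residual representation of a semistable curve over a finite field
-/

set_option autoImplicit false

noncomputable section

open WeierstrassCurve WeierstrassCurve.Affine WeierstrassCurve.Affine.Point Polynomial
open scoped WeierstrassCurve.Affine TensorProduct

namespace Fermat.Agent.RT.Lift.Lower

local notation "Q̄" => AlgebraicClosure ℚ
local notation "GQ" => AlgebraicClosure ℚ ≃ₐ[ℚ] AlgebraicClosure ℚ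

variable (W : WeierstrassCurve ℤ) (hΔ : W.Δ ≠ 0) (p : ℕ) [Fact p.Prime] (k : Type) [Field k]
  [Algebra (ZMod p) k]

/-- The representation on the `p`-torsion of `W`, over `k`. -/
def curveRho : ResidualGaloisRep k :=
  (EC.Rep.residualRep W p hΔ).baseChange k

/-- The traces of Frobenius elements of the residual representation. -/
def curveAbar (ℓ : ℕ) : k :=
  (W.apOfModel ℓ : k)

variable {W} {hΔ} {p} {k}

theorem charpoly_curveRho (σ : GQ) : LinearMap.charpoly ((curveRho W hΔ p k).ρ σ) =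
    (LinearMap.charpoly ((EC.Rep.residualRep W p hΔ).ρ σ)).map (algebraMap (ZMod p) k) :=
  LinearMap.charpoly_baseChange _ k

theorem charpoly_curveRho_frobenius {ℓ : ℕ} (hℓ : ℓ.Prime) (hgood : W.IsGoodPrimeFor ℓ)
    (hne : ℓ ≠ p) {A : ValuationSubring Q̄} (hA : A.LiesOverPrime ℓ) {σ : GQ}
    (hσ : A.IsFrobeniusAt σ ℓ) :
    LinearMap.charpoly ((curveRho W hΔ p k).ρ σ) =
      X ^ 2 - C (curveAbar W k ℓ) * X + C (ℓ : k) := by
  rw [charpoly_curveRho, EC.Rep.charpoly_residualRep_frobenius _ hℓ hgood hne hA hσ]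
  simp [curveAbar]

theorem det_curveRho {σ : GQ} {a : ℕ} (ha : ∀ μ : Q̄, μ ^ p = 1 → σ μ = μ ^ a) :
    LinearMap.det ((curveRho W hΔ p k).ρ σ) = (a : k) := by
  have hn := EC.FrobTrace.card_rootsOfUnity_Qbar p
  refine (LinearMap.det_baseChange (A := k) _).trans ?_
  rw [EC.Rep.det_residualRep _ hn, Arith.modularCyclotomicCharacter_eq_natCast hn ha, map_natCast]

theorem isAbsolutelyIrreducible_curveRho (hp2 : p ≠ 2) (hirr : W.ModRepIsIrreducible p) :
    (curveRho W hΔ p k).IsAbsolutelyIrreducible :=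
  Assembly.isAbsolutelyIrreducible_baseChange _ fun K =>
    EC.Rep.baseChange_residualRep_isIrreducible _ hp2 hirr K

theorem isUnramifiedAt_curveRho {q : ℕ} (h : (EC.Rep.residualRep W p hΔ).IsUnramifiedAt q) :
    (curveRho W hΔ p k).IsUnramifiedAt q := by
  intro A hA σ hσ
  show LinearMap.baseChange k _ = 1
  rw [show (EC.Rep.residualRep W p hΔ).ρ σ = 1 from h A hA σ hσ, LinearMap.baseChange_one]
  rfl

theorem exists_inertia_ne_one {q : ℕ} (h : ¬ (EC.Rep.residualRep W p hΔ).IsUnramifiedAt q) :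
    ∃ (A : ValuationSubring Q̄), A.LiesOverPrime q ∧
      ∃ σ ∈ A.inertiaSubgroupIn ℚ, (curveRho W hΔ p k).ρ σ ≠ 1 := by
  simp only [ResidualGaloisRep.IsUnramifiedAt, not_forall] at h
  obtain ⟨A, hA, σ, hσ, hne⟩ := h
  refine ⟨A, hA, σ, hσ, fun h1 => hne (LinearMap.ext fun x => ?_)⟩
  have h2 := LinearMap.congr_fun h1 ((1 : k) ⊗ₜ[ZMod p] x)
  exact Module.FaithfullyFlat.tensorProduct_mk_injective (A := ZMod p) (B := k) _ h2

theorem charpoly_curveRho_inertia (hss : W.IsSemistableModel) {q : ℕ} (hq : q.Prime) (hqp : q ≠ p)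
    {A : ValuationSubring Q̄} (hA : A.LiesOverPrime q) {σ : GQ}
    (hσ : σ ∈ A.inertiaSubgroupIn ℚ) :
    LinearMap.charpoly ((curveRho W hΔ p k).ρ σ) = (X - C 1) ^ 2 := by
  have h := EC.Rep.isUnipotentOnInertiaAt_residualRep hΔ hq hqp
    (EC.Rep.semistable_not_dvd hss q hq) A hA σ hσ
  rw [charpoly_curveRho]
  exact (congrArg (Polynomial.map _) h).trans (by simp)

theorem trace_curveRho_inertia (hss : W.IsSemistableModel) {q : ℕ} (hq : q.Prime) (hqp : q ≠ p)
    {A : ValuationSubring Q̄} (hA : A.LiesOverPrime q) {σ : GQ}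
    (hσ : σ ∈ A.inertiaSubgroupIn ℚ) :
    LinearMap.trace k _ ((curveRho W hΔ p k).ρ σ) = 2 := by
  have h := charpoly_curveRho_inertia (k := k) (hΔ := hΔ) hss hq hqp hA hσ
  rw [EC.FrobTrace.charpoly_of_finrank_eq_two (curveRho W hΔ p k).finrank_eq] at h
  have h1 := congrArg (fun f => Polynomial.coeff f 1) h
  rw [show ((X : k[X]) - C 1) ^ 2 = X ^ 2 - C 2 * X + C 1 by
    rw [show (2 : k) = 1 + 1 by norm_num, map_add, map_one]; ring] at h1
  simpa [coeff_C, coeff_one] using h1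

theorem exists_curveAbar_ne (hp2 : p ≠ 2) (hΔ : W.Δ ≠ 0) (hirr : W.ModRepIsIrreducible p)
    (S : Finset ℕ) : ∃ ℓ : ℕ, ℓ.Prime ∧ ℓ ∉ S ∧ curveAbar W k ℓ ≠ 1 + (ℓ : k) := by
  obtain ⟨ℓ, hℓ, hℓS, -, -, hne⟩ := EC.Rep.exists_apOfModel_ne hp2 hirr hΔ S
  refine ⟨ℓ, hℓ, hℓS, fun h => hne ((algebraMap (ZMod p) k).injective ?_)⟩
  rw [map_intCast, map_add, map_one, map_natCast]
  exact h

/-- The representation splits in a field with the roots of all quadratic polynomials. -/
theorem exists_split (hquad : ∀ f : (ZMod p)[X], f.natDegree = 2 →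
      ∃ x : k, (f.map (algebraMap (ZMod p) k)).IsRoot x) (σ : GQ) :
    ∃ α β : k, LinearMap.charpoly ((curveRho W hΔ p k).ρ σ) = (X - C α) * (X - C β) := by
  set f := LinearMap.charpoly ((EC.Rep.residualRep W p hΔ).ρ σ)
  have hf : f.natDegree = 2 := by
    rw [LinearMap.charpoly_natDegree]
    exact (EC.Rep.residualRep W p hΔ).finrank_eq
  obtain ⟨x, hx⟩ := hquad f hf
  rw [← charpoly_curveRho σ,
    EC.FrobTrace.charpoly_of_finrank_eq_two (curveRho W hΔ p k).finrank_eq] at hx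
  refine ⟨x, LinearMap.trace _ _ ((curveRho W hΔ p k).ρ σ) - x, ?_⟩
  rw [EC.FrobTrace.charpoly_of_finrank_eq_two (curveRho W hΔ p k).finrank_eq]
  simp only [IsRoot.def, eval_add, eval_sub, eval_pow, eval_mul, eval_X, eval_C] at hx
  rw [show LinearMap.det ((curveRho W hΔ p k).ρ σ) =
    LinearMap.trace _ _ ((curveRho W hΔ p k).ρ σ) * x - x ^ 2 by linear_combination hx]
  simp only [map_sub, map_mul, map_pow]
  ring

end Fermat.Agent.RT.Lift.Lower

end
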