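import Fermat.Agent.RT.Assembly.Forms
import Fermat.Agent.RT.Lift.Lower.Residual
import Fermat.Agent.RT.Lift.Inputs

/-!
# Modular forms congruent to a curve

Residual modularity at a level is the existence of a congruent form of that level, and passes to
squarefree multiples.
-/

set_option autoImplicit false

noncomputable section

open WeierstrassCurve Polynomial
open CongruenceSubgroup ModularFormClass

namespace Fermat.Agent.RT.Lift.Lower

local notation "Q̄" => AlgebraicClosure ℚ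
local notation "GQ" => AlgebraicClosure ℚ ≃ₐ[ℚ] AlgebraicClosure ℚ

variable {W : WeierstrassCurve ℤ} (hΔ : W.Δ ≠ 0) {p : ℕ} [Fact p.Prime] {k : Type} [Field k]
  [Algebra (ZMod p) k]

include hΔ

omit [Fact p.Prime] [Algebra (ZMod p) k] in
theorem isGoodPrimeFor_of_notMem {S : Finset ℕ} (hS : W.Δ.natAbs.primeFactors ⊆ S) {ℓ : ℕ}
    (hℓ : ℓ.Prime) (h : ℓ ∉ S) : W.IsGoodPrimeFor ℓ := fun hd =>
  h (hS (Nat.mem_primeFactors.mpr ⟨hℓ, Int.natCast_dvd.mp hd, Int.natAbs_ne_zero.mpr hΔ⟩))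

/-- The representation of a congruent form against that of the curve. -/
theorem charpoly_attached_eq
    (hD : ∀ (N p : ℕ) [NeZero N] [Fact p.Prime], Nonempty (GaloisReps.HeckeGaloisModel N p))
    {M : ℕ} (hM : M ≠ 0) {g : CuspForm (Gamma0 M) 2} (hg : g.IsNormalizedEigenform)
    (φ : integralClosure ℤ ℂ →+* AlgebraicClosure k) (T : Finset ℕ)
    (hout : ∀ ℓ : ℕ, ℓ.Prime → ℓ ∉ T → ∀ a : integralClosure ℤ ℂ, (a : ℂ) = qCoeff g ℓ →
      φ a = algebraMap k _ (curveAbar W k ℓ)) :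
    ∃ ρ : ResidualGaloisRep (AlgebraicClosure k), ρ.IsAttachedTo g φ ∧
      (∀ σ : GQ, LinearMap.charpoly (ρ.ρ σ) =
        (LinearMap.charpoly ((curveRho W hΔ p k).ρ σ)).map (algebraMap k (AlgebraicClosure k))) ∧
      ∀ ℓ : ℕ, ℓ.Prime → ¬ ℓ ∣ M * p → ρ.IsUnramifiedAt ℓ := by
  classical
  have hp : p.Prime := Fact.out
  have hpk : CharP k p := charP_of_injective_algebraMap (algebraMap (ZMod p) k).injective p
  have : CharP (AlgebraicClosure k) p :=
    charP_of_injective_algebraMap (algebraMap k (AlgebraicClosure k)).injective p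
  obtain ⟨ρ, hatt, hunr⟩ := GaloisReps.exists_residual_eigenform hD hg hp φ
  refine ⟨ρ, hatt, fun σ => ?_, hunr⟩
  refine (Assembly.charpoly_eq_of_frobenius ρ ((curveRho W hΔ p k).baseChange (AlgebraicClosure k))
    (T ∪ insert p (M.primeFactors ∪ W.Δ.natAbs.primeFactors))
    (fun ℓ hℓ hℓT A hA τ hτ => ?_) σ).trans (LinearMap.charpoly_baseChange _ _)
  simp only [Finset.mem_union, Finset.mem_insert, not_or] at hℓT
  have hℓM : ¬ ℓ ∣ M := fun h => hℓT.2.2.1 (Nat.mem_primeFactors.mpr ⟨hℓ, h, hM⟩)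
  have hgood : W.IsGoodPrimeFor ℓ := isGoodPrimeFor_of_notMem hΔ subset_rfl hℓ hℓT.2.2.2
  have hℓ0 : (ℓ : AlgebraicClosure k) ≠ 0 := fun h => hℓT.2.1
    ((Nat.prime_dvd_prime_iff_eq hp hℓ).mp ((CharP.cast_eq_zero_iff _ p ℓ).mp h)).symm
  obtain ⟨a, ha, hc⟩ := hatt ℓ hℓ hℓM hℓ0 A hA τ hτ
  rw [hc, hout ℓ hℓ hℓT.1 a ha]
  show _ = LinearMap.charpoly (((curveRho W hΔ p k).ρ τ).baseChange (AlgebraicClosure k))
  rw [LinearMap.charpoly_baseChange, charpoly_curveRho_frobenius hℓ hgood hℓT.2.1 hA hτ]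
  simp

/-- A congruence outside a finite set extends to all good primes away from the level and `p`. -/
theorem congr_of_congr_outside
    (hD : ∀ (N p : ℕ) [NeZero N] [Fact p.Prime], Nonempty (GaloisReps.HeckeGaloisModel N p))
    {M : ℕ} {g : CuspForm (Gamma0 M) 2} (hg : g.IsNormalizedEigenform)
    (φ : integralClosure ℤ ℂ →+* AlgebraicClosure k) (T : Finset ℕ)
    (hout : ∀ ℓ : ℕ, ℓ.Prime → ℓ ∉ T → ∀ a : integralClosure ℤ ℂ, (a : ℂ) = qCoeff g ℓ →
      φ a = algebraMap k _ (curveAbar W k ℓ))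
    {ℓ : ℕ} (hℓ : ℓ.Prime) (hgood : W.IsGoodPrimeFor ℓ) (hℓM : ¬ ℓ ∣ M)
    (hℓp : ℓ ≠ p) {a : integralClosure ℤ ℂ} (ha : (a : ℂ) = qCoeff g ℓ) :
    φ a = algebraMap k _ (curveAbar W k ℓ) := by
  have hp : p.Prime := Fact.out
  have hpk : CharP k p := charP_of_injective_algebraMap (algebraMap (ZMod p) k).injective p
  have : CharP (AlgebraicClosure k) p :=
    charP_of_injective_algebraMap (algebraMap k (AlgebraicClosure k)).injective p
  have hℓ0 : (ℓ : AlgebraicClosure k) ≠ 0 := fun h => hℓp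
    ((Nat.prime_dvd_prime_iff_eq hp hℓ).mp ((CharP.cast_eq_zero_iff _ p ℓ).mp h)).symm
  obtain ⟨ρ, hatt, hρ, -⟩ := charpoly_attached_eq hΔ (p := p) hD
    (M := M) (fun h => hℓM (by rw [h]; exact dvd_zero ℓ)) hg φ T hout
  obtain ⟨A, hA⟩ := Arith.exists_liesOverPrime hℓ
  obtain ⟨σ, hσ⟩ := Arith.exists_isFrobeniusAt hA hℓ
  obtain ⟨a', ha', hc⟩ := hatt ℓ hℓ hℓM hℓ0 A hA σ hσ
  rw [hρ σ, charpoly_curveRho_frobenius hℓ hgood hℓp hA hσ] at hc
  have h1 := congrArg (fun f => Polynomial.coeff f 1) hc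
  rw [show a = a' from Subtype.ext (ha.trans ha'.symm)]
  simpa [coeff_X_pow] using h1.symm

/-- A congruent form makes the curve residually modular of its level. -/
theorem isResiduallyModular_of_congruent
    (hD : ∀ (N p : ℕ) [NeZero N] [Fact p.Prime], Nonempty (GaloisReps.HeckeGaloisModel N p))
    {S : Finset ℕ} {M : ℕ} (h : IsCongruentLevel S (curveAbar W k) M) :
    W.IsResiduallyModularOfLevel p M := by
  obtain ⟨g, hg, φ, hφ⟩ := h
  have hp : p.Prime := Fact.out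
  have hpk : CharP k p := charP_of_injective_algebraMap (algebraMap (ZMod p) k).injective p
  have : CharP (AlgebraicClosure k) p :=
    charP_of_injective_algebraMap (algebraMap k (AlgebraicClosure k)).injective p
  have hmax : (RingHom.ker φ).IsMaximal := by
    have hP : (RingHom.ker φ).IsPrime := RingHom.ker_isPrime φ
    refine Ideal.isMaximal_of_isIntegral_of_isMaximal_comap (R := ℤ) _ ?_
    have hle : Ideal.span {(p : ℤ)} ≤ (RingHom.ker φ).comap (algebraMap ℤ _) := by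
      rw [Ideal.span_le, Set.singleton_subset_iff, SetLike.mem_coe, Ideal.mem_comap,
        RingHom.mem_ker, map_natCast, map_natCast]
      exact CharP.cast_eq_zero _ _
    have hmax' : (Ideal.span {(p : ℤ)}).IsMaximal :=
      PrincipalIdealRing.isMaximal_of_irreducible (Nat.prime_iff_prime_int.mp hp).irreducible
    rw [← hmax'.eq_of_le (Ideal.IsPrime.comap _).ne_top hle]
    exact hmax'
  refine ⟨g, RingHom.ker φ, hg, hmax, ?_, fun ℓ hℓ hgood hℓM hℓp => ?_⟩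
  · rw [RingHom.mem_ker, map_natCast]
    exact CharP.cast_eq_zero _ _
  · have : NeZero M := ⟨fun h => hℓM (h ▸ dvd_zero ℓ)⟩
    obtain ⟨θ, hθ⟩ := GaloisReps.exists_eigenform_character hg
    refine ⟨θ (HeckeDuality.heckeOp M 2 ℓ hℓ), hθ ℓ hℓ, ?_⟩
    rw [RingHom.mem_ker, map_sub, sub_eq_zero,
      congr_of_congr_outside hΔ (p := p) hD hg φ S hφ hℓ hgood hℓM hℓp (hθ ℓ hℓ), map_intCast]
    exact map_intCast (algebraMap k _) _

omit hΔ [Algebra (ZMod p) k] in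
set_option synthInstance.maxHeartbeats 200000 in
/-- Residual modularity gives a congruent form. -/
theorem isCongruentLevel_of_isResiduallyModular [CharP k p] {S : Finset ℕ} {N : ℕ}
    (hS : ∀ ℓ : ℕ, ℓ.Prime → (ℓ = p ∨ ℓ ∣ N ∨ (ℓ : ℤ) ∣ W.Δ) → ℓ ∈ S)
    (hmod : W.IsResiduallyModularOfLevel p N) : IsCongruentLevel S (curveAbar W k) N := by
  obtain ⟨g, 𝔪, hg, h𝔪, hp𝔪, hcong⟩ := hmod
  let : Algebra (ZMod p) k := ZMod.algebra k p
  let : Field (integralClosure ℤ ℂ ⧸ 𝔪) := Ideal.Quotient.field 𝔪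
  have hpF : CharP (integralClosure ℤ ℂ ⧸ 𝔪) p := by
    refine (CharP.charP_iff_prime_eq_zero Fact.out).mpr ?_
    rw [← map_natCast (Ideal.Quotient.mk 𝔪), Ideal.Quotient.eq_zero_iff_mem]
    exact hp𝔪
  let : Algebra (ZMod p) (integralClosure ℤ ℂ ⧸ 𝔪) := ZMod.algebra _ p
  have : Algebra.IsIntegral ℤ (integralClosure ℤ ℂ ⧸ 𝔪) := inferInstance
  have : Algebra.IsIntegral (ZMod p) (integralClosure ℤ ℂ ⧸ 𝔪) :=
    ⟨fun x => (Algebra.IsIntegral.isIntegral (R := ℤ) x).tower_top⟩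
  let j : (integralClosure ℤ ℂ ⧸ 𝔪) →ₐ[ZMod p] AlgebraicClosure k := IsAlgClosed.lift
  let φ : integralClosure ℤ ℂ →+* AlgebraicClosure k := j.toRingHom.comp (Ideal.Quotient.mk 𝔪)
  refine ⟨g, hg, φ, fun ℓ hℓ hℓS a ha => ?_⟩
  obtain ⟨b, hb, hbm⟩ := hcong ℓ hℓ (fun h => hℓS (hS ℓ hℓ (Or.inr (Or.inr h))))
    (fun h => hℓS (hS ℓ hℓ (Or.inr (Or.inl h)))) (fun h => hℓS (hS ℓ hℓ (Or.inl h)))
  rw [show a = b from Subtype.ext (ha.trans hb.symm), curveAbar, map_intCast]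
  show j (Ideal.Quotient.mk 𝔪 b) = _
  rw [(Ideal.Quotient.mk_eq_mk_iff_sub_mem _ _).mpr hbm, map_intCast, map_intCast]

/-- Residual modularity passes to squarefree multiples of the level. -/
theorem isResiduallyModular_raise
    (hD : ∀ (N p : ℕ) [NeZero N] [Fact p.Prime], Nonempty (GaloisReps.HeckeGaloisModel N p))
    {d L : ℕ} (hL : Squarefree L) (hd : d ∣ L) (h : W.IsResiduallyModularOfLevel p d) :
    W.IsResiduallyModularOfLevel p L := by
  classical
  let S : Finset ℕ := insert p (L.primeFactors ∪ W.Δ.natAbs.primeFactors)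
  obtain ⟨g, hg, φ, hφ⟩ := isCongruentLevel_of_isResiduallyModular (k := ZMod p)
    (S := S) (fun ℓ hℓ h => by
      simp only [S, Finset.mem_insert, Finset.mem_union, Nat.mem_primeFactors]
      rcases h with h | h | h
      · exact Or.inl h
      · exact Or.inr (Or.inl ⟨hℓ, h.trans hd, hL.ne_zero⟩)
      · exact Or.inr (Or.inr ⟨hℓ, Int.natCast_dvd.mp h, Int.natAbs_ne_zero.mpr hΔ⟩)) h
  obtain ⟨f, hf, hfg⟩ := ConductorLevel.exists_raise hL hd hg
  refine isResiduallyModular_of_congruent (k := ZMod p) hΔ hD (S := S)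
    ⟨f, hf, φ, fun ℓ hℓ hℓS a ha => hφ ℓ hℓ hℓS a (ha.trans (hfg ℓ hℓ fun hd' => hℓS ?_))⟩
  simp only [S, Finset.mem_insert, Finset.mem_union, Nat.mem_primeFactors]
  exact Or.inr (Or.inl ⟨hℓ, hd', hL.ne_zero⟩)

omit hΔ [Fact p.Prime] [Algebra (ZMod p) k] in
/-- A newform below a congruent form. -/
theorem exists_congruent_newform {abar : ℕ → k} {S : Finset ℕ} {M : ℕ} (hM : M ≠ 0)
    (h : IsCongruentLevel S abar M) :
    ∃ M' : ℕ, M' ∣ M ∧ ∃ g : CuspForm (Gamma0 M') 2, g.IsNewform ∧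
      IsCongruentForm (S ∪ M.primeFactors) abar g := by
  obtain ⟨f, hf, φ, hφ⟩ := h
  obtain ⟨M', hM', g, hg, hgf⟩ := ConductorLevel.exists_newform_below hM hf
  refine ⟨M', hM', g, hg, hg.1, φ, fun ℓ hℓ hℓS a ha => ?_⟩
  simp only [Finset.mem_union, not_or] at hℓS
  exact hφ ℓ hℓ hℓS.1 a (ha.trans (hgf ℓ hℓ fun hd =>
    hℓS.2 (Nat.mem_primeFactors.mpr ⟨hℓ, hd, hM⟩)))

end Fermat.Agent.RT.Lift.Lower

end
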