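import Fermat.Agent.RT.Lift.Inputs
import Fermat.Agent.RT.Lift.Lower.Forms
import Fermat.Agent.RT.Assembly.Models

/-!
# Lowering away from `p`: reduction to the two principal statements

At a smallest squarefree congruent level, Mazur's principle makes every unramified prime different
from `p` a place with scalar Frobenius elements; lowering then follows once such levels are
excluded.
-/

set_option autoImplicit false

noncomputable section

open WeierstrassCurve
open scoped WeierstrassCurve.Affine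

namespace Fermat.Agent.RT.Lift.Lower

local notation "Q̄" => AlgebraicClosure ℚ

/-- All Frobenius elements at `v` act by scalars on the `p`-torsion of `W`. -/
def HasScalarFrobenius (W : WeierstrassCurve ℤ) (hΔ : W.Δ ≠ 0) (p : ℕ) [Fact p.Prime] (v : ℕ) :
    Prop :=
  ∀ A : ValuationSubring Q̄, A.LiesOverPrime v → ∀ F : Q̄ ≃ₐ[ℚ] Q̄, A.IsFrobeniusAt F v →
    ∃ c : ZMod p, (EC.Rep.residualRep W p hΔ).ρ F = c • 1

/-- Mazur's principle: a prime of a squarefree modular level, different from `p`, at which the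
residual representation is unramified with a nonscalar Frobenius element can be removed. -/
def MazurGenInput : Prop := ∀ (p : ℕ) [Fact p.Prime] (_hp2 : p ≠ 2) (W : WeierstrassCurve ℤ)
  (hΔ : W.Δ ≠ 0) (_hW : W.IsSemistableModel) (_hirr : W.ModRepIsIrreducible p) (M v : ℕ)
  (_hM : Squarefree M) (_hv : v.Prime) (_hvp : v ≠ p) (_hvM : v ∣ M)
  (_hunr : (EC.Rep.residualRep W p hΔ).IsUnramifiedAt v)
  (_hns : ¬ HasScalarFrobenius W hΔ p v)
  (_hmod : W.IsResiduallyModularOfLevel p M),
  W.IsResiduallyModularOfLevel p (M / v)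

/-- No squarefree level which is smallest among the modular levels dividing it contains a prime
`v ≠ p` of unramified residual representation, if all such primes have scalar Frobenius
elements. -/
def NoScalarMinimalInput : Prop := ∀ (p : ℕ) [Fact p.Prime] (_hp2 : p ≠ 2)
  (W : WeierstrassCurve ℤ) (hΔ : W.Δ ≠ 0) (_hW : W.IsSemistableModel)
  (_hirr : W.ModRepIsIrreducible p) (M : ℕ) (_hM : Squarefree M)
  (_hpW : p ∣ M → (p : ℤ) ∣ W.Δ)
  (_hmod : W.IsResiduallyModularOfLevel p M)
  (_hmin : ∀ d : ℕ, d ∣ M → W.IsResiduallyModularOfLevel p d → d = M)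
  (_hscal : ∀ v : ℕ, v.Prime → v ≠ p → v ∣ M →
    (EC.Rep.residualRep W p hΔ).IsUnramifiedAt v → HasScalarFrobenius W hΔ p v)
  (v₀ : ℕ) (_hv₀ : v₀.Prime) (_hv₀p : v₀ ≠ p) (_hv₀M : v₀ ∣ M)
  (_hv₀u : (EC.Rep.residualRep W p hΔ).IsUnramifiedAt v₀), False

/-- **Lowering away from `p`** from Mazur's principle and the exclusion of scalar minimal levels,
for levels divisible by `p` only if `p` divides the discriminant. -/
theorem lower_of (hMz : MazurGenInput) (hnc : NoScalarMinimalInput) {p : ℕ} [Fact p.Prime]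
    (hp2 : p ≠ 2) {W : WeierstrassCurve ℤ} (hΔ : W.Δ ≠ 0) (hW : W.IsSemistableModel)
    (hirr : W.ModRepIsIrreducible p) {M q : ℕ} (hq : q.Prime) (hqp : q ≠ p) (hqM : q ∣ M)
    (hM : Squarefree M) (hpW : p ∣ M → (p : ℤ) ∣ W.Δ)
    (hunr : (EC.Rep.residualRep W p hΔ).IsUnramifiedAt q)
    (hres : W.IsResiduallyModularOfLevel p M) :
    W.IsResiduallyModularOfLevel p (M / q) := by
  classical
  have hD : ∀ (N p : ℕ) [NeZero N] [Fact p.Prime], Nonempty (GaloisReps.HeckeGaloisModel N p) :=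
    fun N p _ _ => ⟨Assembly.model N p⟩
  -- a smallest level
  have hex : ∃ d, d ∣ M ∧ W.IsResiduallyModularOfLevel p d := ⟨M, dvd_rfl, hres⟩
  obtain ⟨d, ⟨hdM, hd⟩, hmin⟩ : ∃ d, (d ∣ M ∧ W.IsResiduallyModularOfLevel p d) ∧
      ∀ d', d' ∣ M ∧ W.IsResiduallyModularOfLevel p d' → d ≤ d' :=
    ⟨Nat.find hex, Nat.find_spec hex, fun d' h => Nat.find_min' hex h⟩
  have hdsq : Squarefree d := hM.squarefree_of_dvd hdM
  by_cases hqd : q ∣ d
  · exfalso
    refine hnc p hp2 W hΔ hW hirr d hdsq (fun h => hpW (h.trans hdM)) hd (fun d' hd' h => ?_) (fun v hv hvp hvd hu => ?_)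
      q hq hqp hqd hunr
    · exact le_antisymm (Nat.le_of_dvd hdsq.ne_zero.bot_lt hd') (hmin d' ⟨hd'.trans hdM, h⟩)
    · by_contra hns
      have h := hmin (d / v) ⟨(Nat.div_dvd_of_dvd hvd).trans hdM,
        hMz p hp2 W hΔ hW hirr d v hdsq hv hvp hvd hu hns hd⟩
      have := Nat.div_lt_self hdsq.ne_zero.bot_lt hv.one_lt
      omega
  · refine isResiduallyModular_raise hΔ hD
      (hM.squarefree_of_dvd (Nat.div_dvd_of_dvd hqM)) ?_ hd
    obtain ⟨m, rfl⟩ := hqM
    rw [Nat.mul_div_cancel_left _ hq.pos]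
    exact Nat.Coprime.dvd_of_dvd_mul_left
      ((Nat.Prime.coprime_iff_not_dvd hq).2 hqd).symm hdM

end Fermat.Agent.RT.Lift.Lower
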