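import Fermat.Agent.RT.Lift.Aux3
import Fermat.Agent.Arith.Minkowski
import Fermat.Agent.Arith.Chebotarev.Main
import Fermat.Agent.RT.Mazur.OrdersBasic
import Fermat.Agent.Gamma0.Coset

/-!
# Auxiliary levels for Mazur's principle

Levels without elliptic points: a multiple with index prime to `p` for `p ≥ 5`, and a prime
`r ≡ 11` modulo `12` at which the residual representation at `3` is not level raisable.
-/

set_option autoImplicit false

noncomputable section

open scoped Pointwise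
open ModularCurve

namespace Fermat.Agent.RT.Lift.Lower

local notation "Q̄" => AlgebraicClosure ℚ
local notation "GQ" => AlgebraicClosure ℚ ≃ₐ[ℚ] AlgebraicClosure ℚ

/-- For `p ≥ 5` a level has a multiple without elliptic points and of index prime to `p`, prime to
a given prime which does not divide the level. -/
theorem exists_level_noElliptic {p : ℕ} (hp : p.Prime) (hp5 : 5 ≤ p) {v : ℕ} (hv : v.Prime)
    {M : ℕ} (hM : M ≠ 0) (hvM : ¬ v ∣ M) :
    ∃ M' : ℕ, M' ≠ 0 ∧ M ∣ M' ∧ ¬ v ∣ M' ∧ Mazur.NoElliptic M' ∧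
      ∃ d : ℕ, d * dedekindPsi M = dedekindPsi M' ∧ Nat.Coprime p d := by
  obtain ⟨l, hl, hlv, hle⟩ : ∃ l : ℕ, l.Prime ∧ v ≠ l ∧ l ≤ 3 := by
    rcases eq_or_ne v 2 with h | h
    · exact ⟨3, Nat.prime_three, by omega, le_rfl⟩
    · exact ⟨2, Nat.prime_two, h, by norm_num⟩
  have hl' : l * l = 4 ∨ l * l = 9 := by
    have := hl.two_le
    rcases (show l = 2 ∨ l = 3 by omega) with rfl | rfl <;> simp
  have hcop : ∀ m : ℕ, 0 < m → m < p → Nat.Coprime p m := fun m h0 h =>
    (Nat.Prime.coprime_iff_not_dvd hp).2 fun hd => absurd (Nat.le_of_dvd h0 hd) (by omega)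
  have hvl : ¬ v ∣ l := fun h => hlv ((Nat.prime_dvd_prime_iff_eq hv hl).1 h)
  have hl0 := hl.pos
  by_cases h2 : l * l ∣ M
  · exact ⟨M, hM, dvd_rfl, hvM, Mazur.noElliptic_of_dvd hl' h2, 1, one_mul _, Nat.coprime_one_right p⟩
  by_cases h1 : l ∣ M
  · refine ⟨l * M, mul_ne_zero hl.ne_zero hM, dvd_mul_left M l, fun h => ?_,
      Mazur.noElliptic_of_dvd hl' (mul_dvd_mul_left l h1), l,
      (Gamma0.dedekindPsi_mul_of_dvd hl h1).symm, hcop l hl0 (by omega)⟩
    exact (hv.dvd_mul.1 h).elim hvl hvM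
  · refine ⟨l * (l * M), mul_ne_zero hl.ne_zero (mul_ne_zero hl.ne_zero hM),
      (dvd_mul_left M l).trans (dvd_mul_left _ l), fun h => ?_,
      Mazur.noElliptic_of_dvd hl' (mul_dvd_mul_left l (dvd_mul_right l M)), l * (l + 1), ?_, ?_⟩
    · exact (hv.dvd_mul.1 h).elim hvl fun h' => (hv.dvd_mul.1 h').elim hvl hvM
    · rw [Gamma0.dedekindPsi_mul_of_dvd hl (dvd_mul_right l M),
        Gamma0.dedekindPsi_mul_of_not_dvd hl h1, mul_assoc]
    · exact Nat.Coprime.mul_right (hcop l hl0 (by omega)) (hcop (l + 1) (by omega) (by omega))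

/-- A prime `r ≡ 11` modulo `12` is a level without elliptic points. -/
theorem noElliptic_prime {r : ℕ} (hr : r.Prime) (h : r % 12 = 11) : Mazur.NoElliptic r := by
  have : Fact r.Prime := ⟨hr⟩
  refine ⟨Nat.card_eq_zero.mpr (Or.inl ⟨fun ⟨y, hy⟩ => ?_⟩),
    Nat.card_eq_zero.mpr (Or.inl ⟨fun ⟨y, hy⟩ => ?_⟩)⟩
  · have hsq : IsSquare (-1 : ZMod r) := ⟨y, by linear_combination -hy⟩
    exact ZMod.exists_sq_eq_neg_one_iff.1 hsq (by omega)
  · have h3 : y ^ 3 = 1 := by linear_combination (y - 1) * hy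
    have hy0 : y ≠ 0 := fun h0 => by rw [h0] at hy; simp at hy
    have hy1 : y ≠ 1 := fun h1 => by
      rw [h1, one_pow] at hy
      have h3' : ((3 : ℕ) : ZMod r) = 0 := by exact_mod_cast (by linear_combination hy :
        (3 : ZMod r) = 0)
      rw [ZMod.natCast_eq_zero_iff] at h3'
      have := (Nat.prime_dvd_prime_iff_eq hr Nat.prime_three).1 h3'
      omega
    have hord : orderOf y = 3 := by
      have : Fact (Nat.Prime 3) := ⟨Nat.prime_three⟩
      exact orderOf_eq_prime h3 hy1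
    have := ZMod.orderOf_dvd_card_sub_one hy0
    rw [hord] at this
    omega

/-- Some inertia element over `2` moves a square root of `-1`. -/
theorem exists_inertia_two_moves_root {i : Q̄} (hi : i * i = -1) :
    ∃ A : ValuationSubring Q̄, A.LiesOverPrime 2 ∧
      ∃ τ ∈ A.inertiaSubgroupIn ℚ, τ i ≠ i := by
  by_contra hall
  push Not at hall
  have hpm : ∀ g : GQ, g i = i ∨ g i = -i := fun g => by
    refine mul_self_eq_mul_self_iff.1 ?_
    rw [← map_mul, hi, map_neg, map_one]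
  let H : Subgroup GQ := MulAction.stabilizer GQ i
  have hH : ∀ g : GQ, g ∈ H ↔ g i = i := fun g => MulAction.mem_stabilizer_iff
  have : H.Normal := ⟨fun h hh g => by
    rw [hH] at hh ⊢
    rw [AlgEquiv.mul_apply, AlgEquiv.mul_apply]
    have e : g (g⁻¹ i) = i := by rw [← AlgEquiv.mul_apply, mul_inv_cancel, AlgEquiv.one_apply]
    rcases hpm g⁻¹ with h' | h' <;> rw [h'] at e ⊢ <;> simpa [map_neg, hh] using e⟩
  have hint : IsIntegral ℚ i := Algebra.IsIntegral.isIntegral i
  have := IntermediateField.adjoin.finiteDimensional hint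
  have hopen : IsOpen (H : Set GQ) := Subgroup.isOpen_mono
    (fun g hg => (hH g).2 ((IntermediateField.mem_fixingSubgroup_iff _ _).1 hg i
      (IntermediateField.mem_adjoin_simple_self ℚ i)))
    (IntermediateField.fixingSubgroup_isOpen (IntermediateField.adjoin ℚ {i}))
  have htop := Arith.eq_top_of_inertia_le H hopen fun q hq A hA g hg => (hH g).2 (by
    rcases eq_or_ne q 2 with rfl | hq2
    · exact hall A hA g hg
    · exact Arith.inertia_root hA hq hg (m := 4) (by
        rw [show (4 : ℕ) = 2 * 2 from rfl, pow_mul, sq i, hi, neg_one_sq]) fun h => hq2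
          ((Nat.prime_dvd_prime_iff_eq hq Nat.prime_two).1
            (hq.dvd_of_dvd_pow (show q ∣ 2 ^ 2 from h))))
  have hc : (complexConjugation : GQ) i = i := (hH _).1 (htop ▸ Subgroup.mem_top _)
  have h1 := complexEmbedding_complexConjugation i
  rw [hc] at h1
  have h2 : complexEmbedding i * complexEmbedding i = -1 := by rw [← map_mul, hi, map_neg, map_one]
  obtain ⟨a, ha⟩ := Complex.conj_eq_iff_real.1 h1.symm
  rw [ha, ← Complex.ofReal_mul] at h2
  have h3 : a * a = -1 := by exact_mod_cast h2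
  nlinarith [mul_self_nonneg a]

variable {W : WeierstrassCurve ℤ}

set_option maxHeartbeats 800000 in
/-- A prime `r ≡ 11` modulo `12` with `a_r` prime to `3`, outside a given finite set. -/
theorem exists_aux_eleven (hΔ : W.Δ ≠ 0) (hW : W.IsSemistableModel)
    (hirr : W.ModRepIsIrreducible 3) (S : Finset ℕ) :
    ∃ r : ℕ, r.Prime ∧ r ∉ S ∧ r % 12 = 11 ∧ W.IsGoodPrimeFor r ∧
      ((W.apOfModel r : ℤ) : ZMod 3) ≠ 0 := by
  classical
  set ρ := EC.Rep.residualRep W 3 hΔ
  obtain ⟨g₀, hgd, hgt⟩ := exists_det_neg_one_trace_ne_zero (p := 3) rfl hΔ hW hirr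
  obtain ⟨i, hi'⟩ : ∃ i : Q̄, -1 = i * i := IsAlgClosed.exists_eq_mul_self _
  have hi : i * i = -1 := hi'.symm
  have hpm : ∀ g : GQ, g i = i ∨ g i = -i := fun g => by
    refine mul_self_eq_mul_self_iff.1 ?_
    rw [← map_mul, hi, map_neg, map_one]
  have hi0 : i ≠ 0 := fun h => by rw [h, mul_zero] at hi; norm_num at hi
  have hne : -i ≠ i := neg_ne_self.2 hi0
  -- an element with the same image moving `i`
  obtain ⟨g, hρg, hgi⟩ : ∃ g : GQ, ρ.ρ g = ρ.ρ g₀ ∧ g i = -i := by
    rcases hpm g₀ with h | h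
    · obtain ⟨A, hA, τ, hτ, hτi⟩ := exists_inertia_two_moves_root hi
      have hτ' : τ i = -i := (hpm τ).resolve_left hτi
      refine ⟨g₀ * τ ^ 3, ?_, ?_⟩
      · have hN : ∀ x, ρ.ρ τ (ρ.ρ τ x - x) = ρ.ρ τ x - x := fun x =>
          EC.Rep.residualRep_unipotent hΔ hW Nat.prime_two (by norm_num) hA hτ x
        have h3 : ρ.ρ τ ^ 3 = 1 := by
          refine LinearMap.ext fun x => ?_
          show ρ.ρ τ (ρ.ρ τ (ρ.ρ τ x)) = x
          set y := ρ.ρ τ x - x with hy
          have hx : ρ.ρ τ x = x + y := by rw [hy]; abel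
          have hy' : ρ.ρ τ y = y := hN x
          rw [hx, map_add, hx, hy', map_add, map_add, hx, hy']
          have : (3 : ZMod 3) • y = 0 := by rw [show (3 : ZMod 3) = 0 by decide, zero_smul]
          rw [show x + y + y + y = x + (3 : ZMod 3) • y by
            rw [show (3 : ZMod 3) = 1 + 1 + 1 by decide, add_smul, add_smul, one_smul]; abel,
            this, add_zero]
        rw [map_mul, map_pow, h3, mul_one]
      · rw [AlgEquiv.mul_apply, pow_succ, pow_two, AlgEquiv.mul_apply, AlgEquiv.mul_apply, hτ',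
          map_neg, hτ', neg_neg, hτ', map_neg, h]
    · exact ⟨g₀, rfl, h⟩
  -- Chebotarev at the level of `E[3]` and `i`
  obtain ⟨L₀, hL₀fin, hL₀⟩ := ρ.factorsThroughFiniteLevel
  have := IntermediateField.adjoin.finiteDimensional (Algebra.IsIntegral.isIntegral (R := ℚ) i)
  let L : IntermediateField ℚ Q̄ := L₀ ⊔ IntermediateField.adjoin ℚ {i}
  let L' : IntermediateField ℚ Q̄ := IntermediateField.normalClosure ℚ L Q̄
  have : Normal ℚ L' := normalClosure.normal ℚ L Q̄
  have : IsGalois ℚ L' := ⟨⟩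
  obtain ⟨r, hr, hrS, A, hA, σ, hσ, heq⟩ := Arith.Chebotarev.exists_frobenius_restrict_eq L' g
    (insert 2 (insert 3 (S ∪ W.Δ.natAbs.primeFactors)))
  simp only [Finset.mem_insert, Finset.mem_union, not_or] at hrS
  have hfix : ∀ x ∈ L, (g⁻¹ * σ) x = x := fun x hx =>
    (Arith.Chebotarev.restrictNormalHom_eq_one_iff L').mp
      (by rw [map_mul, map_inv, heq, inv_mul_cancel]) x (L.le_normalClosure hx)
  have hσi : σ i = -i := by
    have h1 := hfix i ((le_sup_right : IntermediateField.adjoin ℚ {i} ≤ L)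
      (IntermediateField.mem_adjoin_simple_self ℚ i))
    rw [AlgEquiv.mul_apply] at h1
    have h2 := congrArg g h1
    rw [← AlgEquiv.mul_apply, mul_inv_cancel, AlgEquiv.one_apply] at h2
    rw [h2, hgi]
  have hσρ : ρ.ρ σ = ρ.ρ g := by
    have h1 : ρ.ρ (g⁻¹ * σ) = 1 := hL₀ _ fun x hx => hfix x ((le_sup_left : L₀ ≤ L) hx)
    rw [← mul_inv_cancel_left g σ, map_mul, h1, mul_one]
  have hgood : W.IsGoodPrimeFor r := fun hd => hrS.2.2.2
    (Nat.mem_primeFactors.mpr ⟨hr, Int.natCast_dvd.mp hd, Int.natAbs_ne_zero.mpr hΔ⟩)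
  obtain ⟨htr, hdet⟩ := ConductorLevel.trace_det_of_charpoly ρ.finrank_eq
    (EC.Rep.charpoly_residualRep_frobenius hΔ hr hgood hrS.2.1 hA hσ)
  rw [hσρ, hρg] at htr hdet
  refine ⟨r, hr, hrS.2.2.1, ?_, hgood, fun h => hgt (htr.trans h)⟩
  have hr2 : r % 3 = 2 := by
    rw [hgd] at hdet
    have h2 : ((r : ℕ) : ZMod 3) = ((2 : ℕ) : ZMod 3) := by
      rw [← hdet]
      exact zmod_three_two
    exact (ZMod.natCast_eq_natCast_iff' r 2 3).1 h2
  have hodd : r % 2 = 1 := hr.eq_two_or_odd.resolve_left hrS.1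
  have hr4 : r % 4 ≠ 1 := fun h4 => by
    have hr' : ¬ r ∣ 4 := fun h => hrS.1
      ((Nat.prime_dvd_prime_iff_eq hr Nat.prime_two).1 (hr.dvd_of_dvd_pow (show r ∣ 2 ^ 2 from h)))
    have h1 := Arith.frobenius_root hA hr hσ (m := 4) (ζ := i) (by
      rw [show (4 : ℕ) = 2 * 2 from rfl, pow_mul, sq i, hi, neg_one_sq]) hr'
    rw [hσi, show r = 1 + 4 * (r / 4) by omega, pow_add, pow_one, pow_mul,
      show i ^ 4 = 1 by rw [show (4 : ℕ) = 2 * 2 from rfl, pow_mul, sq i, hi, neg_one_sq],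
      one_pow, mul_one] at h1
    exact hne h1
  omega

end Fermat.Agent.RT.Lift.Lower

end
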