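import Fermat.Agent.RT.Lift.Lower.Forms
import Fermat.Agent.NewformLocal.Toric.Assembly
import Fermat.Agent.NewformLocal.Oldness

/-!
# The representation of a curve at a prime exactly dividing the level of a congruent newform
-/

set_option autoImplicit false

noncomputable section

open WeierstrassCurve Polynomial
open CongruenceSubgroup ModularFormClass
open Fermat.Agent.NewformLocal.Toric (QuarticAt)

namespace Fermat.Agent.RT.Lift.Lower

local notation "Q̄" => AlgebraicClosure ℚ
local notation "GQ" => AlgebraicClosure ℚ ≃ₐ[ℚ] AlgebraicClosure ℚ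

variable {W : WeierstrassCurve ℤ} (hΔ : W.Δ ≠ 0) {p : ℕ} [Fact p.Prime] {k : Type} [Field k]
  [Algebra (ZMod p) k]

set_option maxHeartbeats 800000 in
/-- At a prime `q ∥ M` of the level of a congruent newform the squared trace of a Frobenius
element of the representation of the curve is `(q + 1) ^ 2`. -/
theorem trace_sq_of_special {S : Finset ℕ} {M : ℕ} [NeZero M] {g : CuspForm (Gamma0 M) 2}
    (hg : g.IsNewform) (hcongr : IsCongruentForm S (curveAbar W k) g) {q : ℕ} (hq : q.Prime)
    (hqp : q ≠ p) (hqM : q ∣ M) (D : GaloisReps.HeckeGaloisModel M p)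
    (hT : QuarticAt D q) {A : ValuationSubring Q̄} (hA : A.LiesOverPrime q) {σ : GQ}
    (hσ : A.IsFrobeniusAt σ q) :
    LinearMap.trace k _ ((curveRho W hΔ p k).ρ σ) ^ 2 = ((q : k) + 1) ^ 2 := by
  classical
  have hpk : CharP k p := charP_of_injective_algebraMap (algebraMap (ZMod p) k).injective p
  have : CharP (AlgebraicClosure k) p :=
    charP_of_injective_algebraMap (algebraMap k (AlgebraicClosure k)).injective p
  obtain ⟨-, φ, hφ⟩ := hcongr
  -- the eigen character with values in the algebraic integers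
  obtain ⟨θ₀, hθ₀⟩ := GaloisReps.exists_eigenform_character hg.1
  have hint : ∀ t, ConductorLevel.eigenChar hg.1 (∅ : Set ℕ) t ∈ integralClosure ℤ ℂ := fun t =>
    ConductorLevel.eigenChar_range_le hg.1 (integralClosure ℤ ℂ)
      (fun ℓ hℓ _ => hθ₀ ℓ hℓ ▸ (θ₀ (HeckeDuality.heckeOp M 2 ℓ hℓ)).2) ⟨t, rfl⟩
  let θI : GaloisReps.FullHecke M →+* integralClosure ℤ ℂ :=
    (ConductorLevel.eigenChar hg.1 (∅ : Set ℕ)).codRestrict (integralClosure ℤ ℂ) hint
  have : Module.Finite ℤ (GaloisReps.FullHecke M) := IntegralStructure.heckeAlgebra_finite M 2 ∅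
  have : Module.Finite ℤ θI.range :=
    Module.Finite.of_surjective θI.rangeRestrict.toIntAlgHom.toLinearMap
      θI.rangeRestrict_surjective
  obtain ⟨O', i1, i2, i3, i4, i5, hpO, θA, ψ, hψ⟩ :=
    GaloisReps.exists_lift_char (p := p) (A := θI.range) (φ.comp θI.range.subtype)
  have hθA : Function.Injective θA := by
    rw [RingHom.injective_iff_ker_eq_bot]
    have := RingHom.ker_isPrime θA
    refine Ideal.eq_bot_of_comap_eq_bot (R := ℤ) ?_
    rw [eq_bot_iff]
    intro n hn
    rw [Ideal.mem_comap, RingHom.mem_ker, eq_intCast, map_intCast, Int.cast_eq_zero] at hn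
    exact hn
  let θ : GaloisReps.FullHecke M →+* O' := θA.comp θI.rangeRestrict
  obtain ⟨ι⟩ := GaloisReps.exists_padicHom O' hpO
  -- the residual representation of the newform
  let : Algebra (IsLocalRing.ResidueField O') (AlgebraicClosure k) := ψ.toAlgebra
  let ρO := D.rep ι θ hpO
  let ρ' := ρO.residual.baseChange (AlgebraicClosure k)
  have hch : ∀ τ : GQ, LinearMap.charpoly (ρ'.ρ τ) =
      (LinearMap.charpoly (ρO.ρ τ)).map (ψ.comp (IsLocalRing.residue O')) := fun τ => by
    show LinearMap.charpoly (((ρO.ρ τ).baseChange (IsLocalRing.ResidueField O')).baseChange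
      (AlgebraicClosure k)) = _
    rw [LinearMap.charpoly_baseChange, LinearMap.charpoly_baseChange, Polynomial.map_map]
    rfl
  have hall := Assembly.charpoly_eq_of_frobenius ρ' ((curveRho W hΔ p k).baseChange (AlgebraicClosure k))
    (S ∪ insert p (M.primeFactors ∪ W.Δ.natAbs.primeFactors))
    (fun ℓ hℓ hℓT B hB τ hτ => by
      simp only [Finset.mem_union, Finset.mem_insert, not_or] at hℓT
      have hℓM : ¬ ℓ ∣ M := fun h =>
        hℓT.2.2.1 (Nat.mem_primeFactors.mpr ⟨hℓ, h, NeZero.ne M⟩)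
      have hgood : W.IsGoodPrimeFor ℓ := fun h => hℓT.2.2.2
        (Nat.mem_primeFactors.mpr ⟨hℓ, Int.natCast_dvd.mp h,
          Int.natAbs_ne_zero.mpr hΔ⟩)
      have hNp : ¬ ℓ ∣ M * p := fun h => (hℓ.dvd_mul.mp h).elim hℓM fun h' =>
        hℓT.2.1 ((Nat.prime_dvd_prime_iff_eq hℓ (Fact.out : p.Prime)).mp h')
      rw [hch, show LinearMap.charpoly (ρO.ρ τ) = _ from
        D.charpoly_eigenAction_frobenius ι θ GaloisReps.frobeniusDensity hpO hℓ hNp hB hτ]
      show _ = LinearMap.charpoly (((curveRho W hΔ p k).ρ τ).baseChange (AlgebraicClosure k))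
      rw [LinearMap.charpoly_baseChange, charpoly_curveRho_frobenius hℓ hgood hℓT.2.1 hB hτ]
      have ha : ((θI (HeckeDuality.heckeOp M 2 ℓ hℓ) : integralClosure ℤ ℂ) : ℂ) = qCoeff g ℓ := by
        show ConductorLevel.eigenChar hg.1 (∅ : Set ℕ) _ = _
        rw [HeckeDuality.heckeOp, dif_neg hℓM]
        exact ConductorLevel.eigenChar_T hg.1 hℓ hℓM _
      have e : ψ (IsLocalRing.residue O' (θ (HeckeDuality.heckeOp M 2 ℓ hℓ))) =
          algebraMap k _ (curveAbar W k ℓ) := by
        rw [← hφ ℓ hℓ hℓT.1 _ ha]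
        exact RingHom.congr_fun hψ _
      simp [e]) σ
  -- the special Frobenius element
  have hR : M / q ∣ M := Nat.div_dvd_of_dvd hqM
  have hRq : M / q * q = M := Nat.div_mul_cancel hqM
  have : NeZero (M / q) := ⟨fun h => NeZero.ne M (by rw [← hRq, h, zero_mul])⟩
  obtain ⟨t, ht, htg⟩ := NewformLocal.exists_killsOld_ne_zero hg hR
    (Nat.div_lt_self (Nat.pos_of_ne_zero (NeZero.ne M)) hq.one_lt).ne
  have hθt : θ (GaloisReps.toFull _ t) ≠ 0 := fun h0 => by
    have h1 : θI.rangeRestrict (GaloisReps.toFull _ t) = 0 := hθA (by rw [map_zero]; exact h0)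
    have h2 : ConductorLevel.eigenChar hg.1 (∅ : Set ℕ) (GaloisReps.toFull _ t) = 0 :=
      congrArg (fun x : θI.range => ((x : integralClosure ℤ ℂ) : ℂ)) h1
    rw [NewformLocal.eigenChar_toFull] at h2
    exact htg h2
  have key := NewformLocal.Toric.charpoly_frobenius_bad D ι θ hpO hq hqp hR hRq hT t ht hθt hA hσ
  have h4 : LinearMap.charpoly (ρ'.ρ σ) =
      LinearMap.charpoly (((curveRho W hΔ p k).ρ σ).baseChange (AlgebraicClosure k)) := hall
  rw [hch, LinearMap.charpoly_baseChange,
    EC.FrobTrace.charpoly_of_finrank_eq_two (curveRho W hΔ p k).finrank_eq] at h4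
  have h5 := congrArg (fun f => Polynomial.coeff f 1) h4
  refine (algebraMap k (AlgebraicClosure k)).injective ?_
  rw [map_pow, map_pow, map_add, map_natCast, map_one]
  rcases key with h | h
  · rw [show LinearMap.charpoly (ρO.ρ σ) = _ from h] at h5
    simp [coeff_X_pow] at h5
    linear_combination ((algebraMap k (AlgebraicClosure k)
      (LinearMap.trace k (curveRho W hΔ p k).V ((curveRho W hΔ p k).ρ σ))) + ((q : AlgebraicClosure k) + 1)) * h5
  · rw [show LinearMap.charpoly (ρO.ρ σ) = _ from h] at h5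
    simp [coeff_X_pow] at h5
    linear_combination ((algebraMap k (AlgebraicClosure k)
      (LinearMap.trace k (curveRho W hΔ p k).V ((curveRho W hΔ p k).ρ σ))) - ((q : AlgebraicClosure k) + 1)) * h5

end Fermat.Agent.RT.Lift.Lower

end
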