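import Fermat.Agent.RT.Lift.Lower.Reduce
import Fermat.Agent.RT.Lift.Lower.Special
import Fermat.Agent.RT.Lift.Lower.MazurAux
import Fermat.Agent.RT.MazurP.Embed
import Fermat.Agent.RT.MazurP.Flat
import Fermat.Agent.Deform.Burnside

/-!
# Mazur's principle for a semistable curve

From the statement for an eigen class at level `q M` with an auxiliary level without elliptic
points. At `p = 3` an auxiliary prime of the level takes the place of the auxiliary level and is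
dropped afterwards.
-/

set_option autoImplicit false
set_option synthInstance.maxHeartbeats 400000

noncomputable section

open WeierstrassCurve Polynomial Module
open CongruenceSubgroup ModularFormClass ModularCurve
open scoped TensorProduct

namespace Fermat.Agent.RT.Lift.Lower

local notation "Q̄" => AlgebraicClosure ℚ
local notation "GQ" => AlgebraicClosure ℚ ≃ₐ[ℚ] AlgebraicClosure ℚ

/-- Mazur's principle at the level of eigen classes. -/
def MazurCoreInput : Prop := ∀ {p q M M' : ℕ} [NeZero M] [NeZero M'] [Fact p.Prime] [Fact q.Prime]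
  (_hp2 : p ≠ 2) (_hqp : q ≠ p) (_hMM : M ∣ M') (_hqM : ¬ q ∣ M')
  (_hdeg : ∃ d, d * dedekindPsi M = dedekindPsi M' ∧ Nat.Coprime p d)
  (_hell : Mazur.NoElliptic M')
  (r : GQ →* Matrix (Fin 2) (Fin 2) (ZMod p)) (_hfin : GaloisFactorsThroughFiniteLevel r)
  (_hspan : Submodule.span (ZMod p) (Set.range r) = ⊤)
  (A : ValuationSubring Q̄) (_hA : A.LiesOverPrime q)
  (_hunr : ∀ τ ∈ A.inertiaSubgroupIn ℚ, r τ = 1)
  (σ : GQ) (_hσ : A.IsFrobeniusAt σ q) (_hns : ∀ c : ZMod p, r σ ≠ c • 1)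
  (G : ℕ → Prop) (a : ℕ → ℤ)
  (_hGT : ∃ T : Finset ℕ, ∀ l : ℕ, l.Prime → l ∉ T → G l)
  (_hG : ∀ l : ℕ, l.Prime → G l → ¬ l ∣ q * M * p)
  (_hfrob : ∀ l : ℕ, l.Prime → G l → ∀ B : ValuationSubring Q̄, B.LiesOverPrime l →
    ∀ τ : GQ, B.IsFrobeniusAt τ l → (r τ).trace = (a l : ZMod p) ∧ (r τ).det = (l : ZMod p))
  (x : JZero (q * M)) (_hx0 : x ≠ 0) (_hpx : p • x = 0)
  (_hxe : MazurP.IsEigen (q * M) G a x),
  MazurP.CongrForm M p G a

variable {W : WeierstrassCurve ℤ} {p : ℕ} [Fact p.Prime]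

set_option synthInstance.maxHeartbeats 400000 in
/-- A congruent form at almost all primes is a congruent level. -/
theorem isCongruentLevel_of_congrForm {k : Type} [Field k] [CharP k p] {S : Finset ℕ} {N : ℕ}
    {G : ℕ → Prop} (hS : ∀ ℓ : ℕ, ℓ.Prime → ℓ ∉ S → G ℓ)
    (h : MazurP.CongrForm N p G W.apOfModel) : IsCongruentLevel S (curveAbar W k) N := by
  obtain ⟨g, hg, 𝔪, h𝔪, hp𝔪, hcong⟩ := h
  let : Algebra (ZMod p) k := ZMod.algebra k p
  let : Field (integralClosure ℤ ℂ ⧸ 𝔪) := Ideal.Quotient.field 𝔪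
  have hpF : CharP (integralClosure ℤ ℂ ⧸ 𝔪) p := by
    refine (CharP.charP_iff_prime_eq_zero Fact.out).mpr ?_
    rw [← map_natCast (Ideal.Quotient.mk 𝔪), Ideal.Quotient.eq_zero_iff_mem]
    exact hp𝔪
  let : Algebra (ZMod p) (integralClosure ℤ ℂ ⧸ 𝔪) := ZMod.algebra _ p
  have : Algebra.IsIntegral ℤ (integralClosure ℤ ℂ ⧸ 𝔪) := inferInstance
  have : Algebra.IsIntegral (ZMod p) (integralClosure ℤ ℂ ⧸ 𝔪) :=
    ⟨fun x => (Algebra.IsIntegral.isIntegral (R := ℤ) x).tower_top⟩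
  let j : (integralClosure ℤ ℂ ⧸ 𝔪) →ₐ[ZMod p] AlgebraicClosure k := IsAlgClosed.lift
  let φ : integralClosure ℤ ℂ →+* AlgebraicClosure k := j.toRingHom.comp (Ideal.Quotient.mk 𝔪)
  refine ⟨g, hg, φ, fun ℓ hℓ hℓS a ha => ?_⟩
  obtain ⟨b, hb, hbm⟩ := hcong ℓ hℓ (hS ℓ hℓ hℓS)
  rw [show a = b from Subtype.ext (ha.trans hb.symm), curveAbar, map_intCast]
  show j (Ideal.Quotient.mk 𝔪 b) = _
  rw [(Ideal.Quotient.mk_eq_mk_iff_sub_mem _ _).mpr hbm, map_intCast, map_intCast]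

set_option maxHeartbeats 1000000 in
/-- One application of Mazur's principle, given the auxiliary level. -/
theorem isCongruentLevel_of_core (hc : MazurCoreInput) (hΔ : W.Δ ≠ 0) (hp2 : p ≠ 2)
    (hirr : W.ModRepIsIrreducible p) {v : ℕ} (hv : v.Prime) (hvp : v ≠ p) {M M' : ℕ}
    (hM : M ≠ 0) (hM' : M' ≠ 0) (hMM : M ∣ M') (hvM' : ¬ v ∣ M')
    (hdeg : ∃ d, d * dedekindPsi M = dedekindPsi M' ∧ Nat.Coprime p d)
    (hell : Mazur.NoElliptic M')
    (hunr : (EC.Rep.residualRep W p hΔ).IsUnramifiedAt v)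
    (hns : ¬ HasScalarFrobenius W hΔ p v)
    (hmod : W.IsResiduallyModularOfLevel p (v * M)) {S : Finset ℕ}
    (hS : ∀ ℓ : ℕ, ℓ.Prime → (ℓ = p ∨ ℓ ∣ v * M ∨ (ℓ : ℤ) ∣ W.Δ) → ℓ ∈ S) :
    IsCongruentLevel S (curveAbar W (ZMod p)) M := by
  classical
  have : Fact v.Prime := ⟨hv⟩
  have : NeZero M := ⟨hM⟩
  have : NeZero M' := ⟨hM'⟩
  have : NeZero (v * M) := ⟨mul_ne_zero hv.ne_zero hM⟩
  set ρ := curveRho W hΔ p (ZMod p)
  obtain ⟨b⟩ : Nonempty (Basis (Fin 2) (ZMod p) ρ.V) :=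
    ⟨Module.finBasisOfFinrankEq (ZMod p) ρ.V ρ.finrank_eq⟩
  let r : GQ →* Matrix (Fin 2) (Fin 2) (ZMod p) :=
    (LinearMap.toMatrixAlgEquiv b).toMonoidHom.comp ρ.ρ
  let G : ℕ → Prop := fun l => (W.IsGoodPrimeFor l ∧ l ≠ p) ∧ ¬ l ∣ v * M
  have hGS : ∀ l : ℕ, l.Prime → l ∉ S → G l := fun l hl h =>
    ⟨⟨fun hd => h (hS l hl (Or.inr (Or.inr hd))), fun e => h (hS l hl (Or.inl e))⟩,
      fun hd => h (hS l hl (Or.inr (Or.inl hd)))⟩
  obtain ⟨A, hA, F, hF, hnsF⟩ : ∃ A : ValuationSubring Q̄, A.LiesOverPrime v ∧ ∃ F : GQ,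
      A.IsFrobeniusAt F v ∧ ∀ c : ZMod p, (EC.Rep.residualRep W p hΔ).ρ F ≠ c • 1 := by
    simp only [HasScalarFrobenius, not_forall, not_exists] at hns
    obtain ⟨A, hA, F, hF, h⟩ := hns
    exact ⟨A, hA, F, hF, h⟩
  obtain ⟨ι, hι, -, hιe⟩ := MazurP.exists_eigen_embedding hΔ hp2 hirr hmod
  obtain ⟨w, hw⟩ : ∃ w : (EC.Rep.residualRep W p hΔ).V, w ≠ 0 := by
    have : Nontrivial (EC.Rep.residualRep W p hΔ).V :=
      Module.nontrivial_of_finrank_eq_succ (EC.Rep.residualRep W p hΔ).finrank_eq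
    exact exists_ne 0
  refine isCongruentLevel_of_congrForm hGS (hc hp2 hvp hMM hvM' hdeg hell r ?_ ?_ A hA ?_ F hF ?_
    G W.apOfModel ⟨S, hGS⟩ ?_ ?_ (ι w) (fun h => hw (hι (h.trans (map_zero ι).symm))) (hιe w).1
    (hιe w).2)
  · obtain ⟨K, hK, hK'⟩ := ρ.factorsThroughFiniteLevel
    exact ⟨K, hK, fun g hg => by
      show LinearMap.toMatrixAlgEquiv b (ρ.ρ g) = 1
      rw [hK' g hg, map_one]⟩
  · exact Deform.span_matrix_eq_top ρ (isAbsolutelyIrreducible_curveRho hp2 hirr) b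
  · intro τ hτ
    show LinearMap.toMatrixAlgEquiv b (ρ.ρ τ) = 1
    rw [isUnramifiedAt_curveRho hunr A hA τ hτ, map_one]
  · intro c hc'
    apply hnsF c
    have h1 : ρ.ρ F = c • 1 := (LinearMap.toMatrixAlgEquiv b).injective
      (by rw [map_smul, map_one]; exact hc')
    refine LinearMap.ext fun x => ?_
    have h2 := LinearMap.congr_fun h1 ((1 : ZMod p) ⊗ₜ[ZMod p] x)
    apply Module.FaithfullyFlat.tensorProduct_mk_injective (A := ZMod p) (B := ZMod p)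
      (EC.Rep.residualRep W p hΔ).V
    refine h2.trans ?_
    show c • ((1 : ZMod p) ⊗ₜ[ZMod p] x) = (1 : ZMod p) ⊗ₜ[ZMod p] (c • x)
    rw [TensorProduct.tmul_smul]
  · intro l hl hG hd
    obtain ⟨⟨-, hlp⟩, hlM⟩ := hG
    rcases hl.dvd_mul.1 hd with h | h
    · exact hlM h
    · exact hlp ((Nat.prime_dvd_prime_iff_eq hl Fact.out).1 h)
  · intro l hl hG B hB τ hτ
    obtain ⟨⟨hgood, hlp⟩, -⟩ := hG
    obtain ⟨htr, hdet⟩ := ConductorLevel.trace_det_of_charpoly ρ.finrank_eq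
      (charpoly_curveRho_frobenius hl hgood hlp hB hτ)
    constructor
    · show (LinearMap.toMatrixAlgEquiv b (ρ.ρ τ)).trace = _
      refine Eq.trans ?_ htr
      exact (LinearMap.trace_eq_matrix_trace _ b _).symm
    · show (LinearMap.toMatrixAlgEquiv b (ρ.ρ τ)).det = _
      refine Eq.trans ?_ hdet
      exact LinearMap.det_toMatrix b _

set_option maxHeartbeats 1000000 in
/-- **Mazur's principle for a semistable curve** from the statement for eigen classes. -/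
theorem mazurGenInput_of (hc : MazurCoreInput) : MazurGenInput := by
  classical
  intro p _ hp2 W hΔ hW hirr M v hM hv hvp hvM hunr hns hmod
  have hp : p.Prime := Fact.out
  have hD : ∀ (N p : ℕ) [NeZero N] [Fact p.Prime], Nonempty (GaloisReps.HeckeGaloisModel N p) :=
    fun N p _ _ => ⟨Assembly.model N p⟩
  obtain ⟨M₀, rfl⟩ := hvM
  have hvM₀ : ¬ v ∣ M₀ := fun h => hv.not_isUnit (hM v (mul_dvd_mul_left v h))
  have hM₀ : Squarefree M₀ := hM.squarefree_of_dvd (dvd_mul_left M₀ v)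
  rw [Nat.mul_div_cancel_left _ hv.pos]
  by_cases hp5 : 5 ≤ p
  · obtain ⟨M', hM'0, hMM, hvM', hell, hdeg⟩ :=
      exists_level_noElliptic hp hp5 hv hM₀.ne_zero hvM₀
    refine isResiduallyModular_of_congruent hΔ hD (isCongruentLevel_of_core hc hΔ hp2 hirr hv hvp
      hM₀.ne_zero hM'0 hMM hvM' hdeg hell hunr hns hmod
      (S := insert p ((v * M₀).primeFactors ∪ W.Δ.natAbs.primeFactors)) fun ℓ hℓ h => ?_)
    simp only [Finset.mem_insert, Finset.mem_union, Nat.mem_primeFactors]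
    rcases h with h | h | h
    · exact Or.inl h
    · exact Or.inr (Or.inl ⟨hℓ, h, hM.ne_zero⟩)
    · exact Or.inr (Or.inr ⟨hℓ, Int.natCast_dvd.mp h, Int.natAbs_ne_zero.mpr hΔ⟩)
  obtain rfl : p = 3 := by
    have := hp.two_le
    have : p ≠ 4 := by rintro rfl; norm_num at hp
    omega
  obtain ⟨r, hr, hrS, hr12, hgood, har⟩ :=
    exists_aux_eleven hΔ hW hirr (insert 3 (v * M₀).primeFactors)
  rw [Finset.mem_insert, not_or] at hrS
  have hr3 : r ≠ 3 := hrS.1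
  have hrM : ¬ r ∣ v * M₀ := fun h => hrS.2 (Nat.mem_primeFactors.2 ⟨hr, h, hM.ne_zero⟩)
  have hsq : Squarefree (v * (M₀ * r)) := by
    rw [← mul_assoc]
    exact Nat.squarefree_mul_iff.2
      ⟨((Nat.Prime.coprime_iff_not_dvd hr).2 hrM).symm, hM, hr.squarefree⟩
  have hvMr : ¬ v ∣ M₀ * r := fun h => (hv.dvd_mul.1 h).elim hvM₀ fun h' =>
    hrM ((Nat.prime_dvd_prime_iff_eq hv hr).1 h' ▸ dvd_mul_right v M₀)
  have hMr0 : M₀ * r ≠ 0 := mul_ne_zero hM₀.ne_zero hr.ne_zero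
  let S : Finset ℕ := insert 3 ((v * (M₀ * r)).primeFactors ∪ W.Δ.natAbs.primeFactors)
  have hcong := isCongruentLevel_of_core hc hΔ hp2 hirr hv hvp hMr0 hMr0 dvd_rfl hvMr
    ⟨1, one_mul _, Nat.coprime_one_right 3⟩
    ((noElliptic_prime hr hr12).mono (dvd_mul_left r M₀) hr.ne_zero) hunr hns
    (isResiduallyModular_raise hΔ hD hsq (mul_dvd_mul_left v (dvd_mul_right M₀ r)) hmod)
    (S := S) fun ℓ hℓ h => by
      simp only [S, Finset.mem_insert, Finset.mem_union, Nat.mem_primeFactors]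
      rcases h with h | h | h
      · exact Or.inl h
      · exact Or.inr (Or.inl ⟨hℓ, h, hsq.ne_zero⟩)
      · exact Or.inr (Or.inr ⟨hℓ, Int.natCast_dvd.mp h, Int.natAbs_ne_zero.mpr hΔ⟩)
  obtain ⟨N, hN, g, hg, hcg⟩ := exists_congruent_newform hMr0 hcong
  have : NeZero N := ⟨fun h => hMr0 (Nat.eq_zero_of_zero_dvd (h ▸ hN))⟩
  have hrN : ¬ r ∣ N := by
    intro hrN
    have hr2 : ¬ r ^ 2 ∣ N := fun h => hr.not_isUnit
      ((hsq.squarefree_of_dvd (dvd_mul_left (M₀ * r) v)) r (by rw [← sq]; exact h.trans hN))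
    obtain ⟨A, hA⟩ := Arith.exists_liesOverPrime hr
    obtain ⟨F, hF⟩ := Arith.exists_isFrobeniusAt hA hr
    have h1 := trace_sq_of_special hΔ hg hcg hr hr3 hrN (Assembly.model N 3)
      (Assembly.localModelInput N 3 r hr hr3 hrN hr2).2 hA hF
    obtain ⟨htr, -⟩ := ConductorLevel.trace_det_of_charpoly (curveRho W hΔ 3 (ZMod 3)).finrank_eq
      (charpoly_curveRho_frobenius hr hgood hr3 hA hF)
    have h0 : (r : ZMod 3) + 1 = 0 := by
      have h11 : (r : ZMod 3) = ((2 : ℕ) : ZMod 3) :=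
        (ZMod.natCast_eq_natCast_iff' r 2 3).2 (by omega)
      rw [h11, ← zmod_three_two, neg_add_cancel]
    rw [htr, h0, zero_pow two_ne_zero] at h1
    exact har (eq_zero_of_pow_eq_zero h1)
  refine isResiduallyModular_raise hΔ hD hM₀ ?_
    (isResiduallyModular_of_congruent hΔ hD ⟨g, hcg⟩)
  exact ((Nat.Prime.coprime_iff_not_dvd hr).2 hrN).symm.dvd_of_dvd_mul_right hN

end Fermat.Agent.RT.Lift.Lower

end
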