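import Fermat.Agent.RT.Lift.Lower.Core
import Fermat.Agent.RT.Lift.Lower.Mazur
import Fermat.Agent.RT.Lift.LowerSqFinal
import Fermat.Agent.RT.Lift.LowerP.Main
import Fermat.Agent.CFT.Tangent.Main
import Fermat.Agent.RT.Mazur.Finish.Main

/-!
# Lowering away from `p`, without condition on `p`

When `p` is good and divides the level it is first removed, at the cost of a level at `2` which is
then removed as well.
-/

set_option autoImplicit false

noncomputable section

open WeierstrassCurve
open scoped WeierstrassCurve.Affine TensorProduct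

namespace Fermat.Agent.RT.Lift.Lower

/-- The inputs at `q ≠ p` from the statement on eigen classes. -/
theorem lowerQInput_of_mazurCore (hc : MazurCoreInput) : LowerQInput :=
  lowerQInput_of_mazur (mazurGenInput_of hc) CFT.Tangent.tangentCoreInput

/-- Mazur's principle on eigen classes holds. -/
theorem mazurCoreInput : MazurCoreInput := Mazur.congrForm_of_eigen

/-- **Lowering at `q ≠ p`.** -/
theorem lowerQInput : LowerQInput := lowerQInput_of_mazurCore mazurCoreInput

/-- Triviality of a base change to the prime field. -/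
theorem isUnramifiedAt_of_curveRho {W : WeierstrassCurve ℤ} {hΔ : W.Δ ≠ 0} {p : ℕ} [Fact p.Prime]
    {q : ℕ} (h : (curveRho W hΔ p (ZMod p)).IsUnramifiedAt q) :
    (EC.Rep.residualRep W p hΔ).IsUnramifiedAt q := by
  intro A hA σ hσ
  refine LinearMap.ext fun x => ?_
  have h1 : (((EC.Rep.residualRep W p hΔ).ρ σ).baseChange (ZMod p)) ((1 : ZMod p) ⊗ₜ[ZMod p] x) =
      (1 : ZMod p) ⊗ₜ[ZMod p] x := LinearMap.congr_fun (h A hA σ hσ) _
  rw [LinearMap.baseChange_tmul] at h1
  simpa using congrArg (TensorProduct.lid (ZMod p) _) h1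

/-- **The statement of milestone 38**, from the statement on eigen classes. -/
theorem lowerQ_full (hc : MazurCoreInput) (p : ℕ) [Fact p.Prime] (hp2 : p ≠ 2)
    (W : WeierstrassCurve ℤ) (hΔ : W.Δ ≠ 0) (hW : W.IsSemistableModel)
    (hirr : W.ModRepIsIrreducible p) (M q : ℕ) (hq : q.Prime) (hqp : q ≠ p) (hqM : q ∣ M)
    (hM : Squarefree M) (hunr : (EC.Rep.residualRep W p hΔ).IsUnramifiedAt q)
    (hres : W.IsResiduallyModularOfLevel p M) : W.IsResiduallyModularOfLevel p (M / q) := by
  classical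
  have hp : p.Prime := Fact.out
  have hp3 : 3 ≤ p := by have := hp.two_le; omega
  have hnc : NoScalarMinimalInput :=
    noScalarMinimalInput_of CFT.Tangent.tangentCoreInput scalarPlacesInput
  have hMz := mazurGenInput_of hc
  by_cases hpW : p ∣ M → (p : ℤ) ∣ W.Δ
  · exact lower_of hMz hnc hp2 hΔ hW hirr hq hqp hqM hM hpW hunr hres
  push Not at hpW
  obtain ⟨⟨m, rfl⟩, hgood⟩ := hpW
  have hpm : ¬ p ∣ m := fun h => hp.not_isUnit (hM p (mul_dvd_mul_left p h))
  have hm : Squarefree m := hM.squarefree_of_dvd (dvd_mul_left m p)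
  have hqm : q ∣ m := (hq.dvd_mul.1 hqM).resolve_left fun h =>
    hqp ((Nat.prime_dvd_prime_iff_eq hq hp).1 h)
  have hD := fun (N p : ℕ) [NeZero N] [Fact p.Prime] => nonempty_models_all N p
  -- remove `p`
  set N := Nat.lcm 4 m
  have hN0 : N ≠ 0 := Nat.lcm_ne_zero (by norm_num) hm.ne_zero
  have : NeZero N := ⟨hN0⟩
  have hpN : ¬ p ∣ N := fun h => by
    rcases hp.dvd_mul.mp (h.trans (Nat.lcm_dvd_mul 4 m)) with h | h
    · exact hp2 ((Nat.prime_dvd_prime_iff_eq hp Nat.prime_two).mp
        (hp.dvd_of_dvd_pow (show p ∣ 2 ^ 2 from h)))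
    · exact hpm h
  obtain ⟨M', hM', hsqf, hres'⟩ := exists_squarefree_level hD newformCarayol lowerSqInput hp2 hΔ
    hW hirr N hN0
    (LowerP.isResiduallyModular_lower_good hp2 hgood hirr (Nat.dvd_lcm_left 4 m) hpN
      (Nat.dvd_lcm_right 4 m) hres)
    (fun h => hpN ((dvd_pow_self p two_ne_zero).trans h)) fun r hr _ h => by
      have h' := (hr.pow_dvd_iff_le_factorization hN0).mp h
      rw [Nat.factorization_lcm (by norm_num) hm.ne_zero, Finsupp.sup_apply] at h'
      have h4 : (4 : ℕ).factorization r ≤ 2 := by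
        rw [show (4 : ℕ) = 2 ^ 2 from rfl, Nat.prime_two.factorization_pow, Finsupp.single_apply]
        split <;> omega
      have hmr := hm.natFactorization_le_one r
      omega
  have hM'2 : M' ∣ 2 * m := (hsqf.dvd_pow_iff_dvd two_ne_zero).mp
    (hM'.trans ((Nat.lcm_dvd_mul 4 m).trans ⟨m, by ring⟩))
  have hresm : W.IsResiduallyModularOfLevel p m := by
    by_cases h2 : 2 ∣ m
    · refine isResiduallyModular_raise hΔ hD hm ?_ hres'
      refine (hsqf.dvd_pow_iff_dvd (x := M') (y := m) two_ne_zero).mp (hM'2.trans ?_)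
      rw [sq]
      exact mul_dvd_mul_right h2 m
    · have hsq2 : Squarefree (2 * m) :=
        (Nat.squarefree_mul ((Nat.Prime.coprime_iff_not_dvd Nat.prime_two).2 h2)).2
          ⟨Nat.prime_two.squarefree, hm⟩
      have h2p : ¬ (2 : ℕ) ∣ p * m := fun h => (Nat.prime_two.dvd_mul.1 h).elim
        (fun h => hp2 ((Nat.prime_dvd_prime_iff_eq Nat.prime_two hp).1 h).symm) h2
      have hu2 : (EC.Rep.residualRep W p hΔ).IsUnramifiedAt 2 := isUnramifiedAt_of_curveRho
        (isUnramifiedAt_of_not_dvd hΔ hD (ZMod p) hp2 hirr hM.ne_zero hres Nat.prime_two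
          (fun h => hp2 h.symm) h2p)
      have hp2m : p ∣ 2 * m → (p : ℤ) ∣ W.Δ := fun h => absurd h fun h =>
        (hp.dvd_mul.1 h).elim (fun h => hp2 ((Nat.prime_dvd_prime_iff_eq hp Nat.prime_two).1 h)) hpm
      have h := lower_of hMz hnc hp2 hΔ hW hirr Nat.prime_two (fun h => hp2 h.symm)
        (dvd_mul_right 2 m) hsq2 hp2m hu2 (isResiduallyModular_raise hΔ hD hsq2 hM'2 hres')
      rwa [Nat.mul_div_cancel_left m two_pos] at h
  have h := lower_of hMz hnc hp2 hΔ hW hirr hq hqp hqm hm (fun h => absurd h hpm) hunr hresm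
  refine isResiduallyModular_raise hΔ hD (hM.squarefree_of_dvd (Nat.div_dvd_of_dvd hqM)) ?_ h
  rw [Nat.mul_div_assoc p hqm]
  exact dvd_mul_left _ _

end Fermat.Agent.RT.Lift.Lower

end
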