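import Fermat.Agent.RT.Lift.Lower.Main
import Fermat.Agent.RT.Assembly.Core
import Fermat.Agent.RT.InertiaTW.Main

/-!
# The patching argument at scalar places, for an arbitrary minimal set

No squarefree congruent level is smallest at a nonempty set of places with scalar decomposition
groups. For `p = 3` two auxiliary primes equal to `2` modulo `3` enter the level; when `p` divides
the level, the systems are strictly ordinary at `p`.
-/

set_option autoImplicit false
set_option linter.style.haveILetI false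

noncomputable section

open IsLocalRing Module Polynomial
open CongruenceSubgroup ModularFormClass
open Fermat.Agent.Deform Fermat.Agent.Arith Fermat.Agent.CFT.Tangent Fermat.Agent.RT.Germ
open Fermat.Agent.RT.Assembly (PatchLevel frobRel)

namespace Fermat.Agent.RT.Lift.Lower

local notation "Q̄" => AlgebraicClosure ℚ

set_option maxHeartbeats 1600000 in
/-- **The patching argument at the places of a minimal level.** -/
theorem scalarPlacesInput : ScalarPlacesInput := by
  intro O _ _ _ _ _ _ p _ _ hp2 hp ζ hζ φ hφinj hφ hcore ρbar habs hdetbar bb hTW hbarI S₀ abar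
    hpS _ hbar hEis hspecial R hR hunr M₀ hM hS₀ hRM hne hcong hmin hscal haux hordp
  classical
  have hpp : p.Prime := Fact.out
  have hp3 : 3 ≤ p := by
    have := hpp.two_le
    omega
  have : NeZero M₀ := ⟨hM.ne_zero⟩
  have hsq : ∀ {v L : ℕ}, Squarefree L → v.Prime → ¬ v ^ 2 ∣ L := fun {v L} hL hv h =>
    hv.not_isUnit (hL v (by rwa [← sq]))
  -- the newform of level `M₀` and the congruence at the places
  obtain ⟨M', hM', g₀, hg₀, hcg₀⟩ := Assembly.exists_newform_congruent hM.ne_zero hS₀ hcong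
  have hM'sq : Squarefree M' := hM.squarefree_of_dvd hM'
  have : NeZero M' := ⟨hM'sq.ne_zero⟩
  have hdetF : ∀ {v : ℕ}, v.Prime → v ≠ p → ∀ {A : ValuationSubring Q̄}, A.LiesOverPrime v →
      ∀ {F : Gal}, A.IsFrobeniusAt F v → LinearMap.det (ρbar.ρ F) = (v : ResidueField O) :=
    fun {v} hv hvp {A} hA {F} hF => hdetbar F v fun μ hμ =>
      GaloisReps.frobenius_apply_root (m := p) hA hv hF (by simpa using hμ) fun h =>
        hvp ((Nat.prime_dvd_prime_iff_eq hv hpp).1 h)
  have hv1 : ∀ v : ℕ, v.Prime → v ∣ M₀ → v ≠ p → v ∉ R → p ∣ v - 1 := by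
    intro v hv hvM hvp hvR
    obtain ⟨A, hA⟩ := Arith.exists_liesOverPrime hv
    obtain ⟨F, hF⟩ := Arith.exists_isFrobeniusAt hA hv
    obtain ⟨e, he⟩ := hscal v hv hvM hvp hvR A hA F hF
    have h1 := hspecial S₀ M' g₀ hg₀ hcg₀ v hv hvp
      (hmin S₀ M' hM' ⟨g₀, hg₀.1, hcg₀.2⟩ v hv hvM hvp hvR) (hsq hM'sq hv) A hA F hF
    have h2 := hdetF hv hvp hA hF
    rw [he, map_smul, LinearMap.trace_one, ρbar.finrank_eq, smul_eq_mul] at h1
    rw [he, LinearMap.det_smul, ρbar.finrank_eq, map_one, mul_one] at h2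
    push_cast at h1
    have h3 : ((v : ResidueField O) - 1) ^ 2 = 0 := by linear_combination -h1 + 4 * h2
    have h4 := sub_eq_zero.1 ((pow_eq_zero_iff two_ne_zero).1 h3)
    rw [← Nat.cast_one, CharP.natCast_eq_natCast (ResidueField O) p] at h4
    exact (Nat.modEq_iff_dvd' hv.one_le).1 h4.symm
  -- the places
  let V := {v : ℕ // v ∈ M₀.primeFactors \ insert p R}
  let vT : V → ℕ := fun v => v.1
  have hvT : ∀ v : V, (vT v).Prime ∧ vT v ∣ M₀ ∧ vT v ≠ p ∧ vT v ∉ R := fun v => by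
    obtain ⟨h1, h2⟩ := Finset.mem_sdiff.1 v.2
    rw [Finset.mem_insert, not_or] at h2
    exact ⟨(Nat.mem_primeFactors.1 h1).1, (Nat.mem_primeFactors.1 h1).2.1, h2⟩
  have : ∀ v, Fact (vT v).Prime := fun v => ⟨(hvT v).1⟩
  obtain ⟨v₁, hv₁, hv₁M, hv₁p, hv₁R⟩ := hne
  let v₀ : V := ⟨v₁, Finset.mem_sdiff.2 ⟨Nat.mem_primeFactors.2 ⟨hv₁, hv₁M, hM.ne_zero⟩, by
    simp [hv₁p, hv₁R]⟩⟩
  have : Nonempty V := ⟨v₀⟩
  -- the auxiliary primes
  obtain ⟨Aux, hAux, hAuxw⟩ : ∃ Aux : Finset ℕ,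
      (∀ a ∈ Aux, a.Prime ∧ a ≠ p ∧ a ∉ S₀ ∧ ¬ a ∣ M₀ ∧
        ∀ A : ValuationSubring Q̄, A.LiesOverPrime a → ∀ F : Gal, A.IsFrobeniusAt F a →
          LinearMap.trace (ResidueField O) ρbar.V (ρbar.ρ F) ^ 2 ≠
            ((a : ResidueField O) + 1) ^ 2) ∧
      (p = 3 → ∃ r r', r ∈ Aux ∧ r' ∈ Aux ∧ r ≠ r' ∧ r % 3 = 2 ∧ r' % 3 = 2) := by
    by_cases h3 : p = 3
    · obtain ⟨r, hr, hrS, hr3, hrne⟩ := haux h3 S₀
      obtain ⟨r', hr', hrS', hr3', hrne'⟩ := haux h3 (insert r S₀)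
      rw [Finset.mem_insert, not_or] at hrS'
      refine ⟨{r, r'}, fun a ha => ?_, fun _ =>
        ⟨r, r', by simp, by simp, fun h => hrS'.1 h.symm, hr3, hr3'⟩⟩
      have key : ∀ {r}, r.Prime → r ∉ S₀ → r ≠ p ∧ ¬ r ∣ M₀ := fun {r} hr hrS =>
        ⟨fun h => hrS (h ▸ hpS), fun h => hrS (hS₀ r hr h)⟩
      rcases Finset.mem_insert.1 ha with rfl | ha
      · exact ⟨hr, (key hr hrS).1, hrS, (key hr hrS).2, hrne⟩
      · obtain rfl := Finset.mem_singleton.1 ha
        exact ⟨hr', (key hr' hrS'.2).1, hrS'.2, (key hr' hrS'.2).2, hrne'⟩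
    · exact ⟨∅, fun a ha => absurd ha (Finset.notMem_empty a), fun h => absurd h h3⟩
  set M₁ := M₀ * ∏ a ∈ Aux, a with hM₁def
  have hM₁ : Squarefree M₁ := by
    rw [hM₁def, Nat.squarefree_mul (Nat.coprime_prod_right_iff.2 fun a ha =>
      ((hAux a ha).1.coprime_iff_not_dvd.2 (hAux a ha).2.2.2.1).symm)]
    refine ⟨hM, Finset.squarefree_prod_of_pairwise_isCoprime ?_ fun a ha =>
      (hAux a ha).1.squarefree⟩
    intro i hi j hj hij
    exact Nat.coprime_iff_isRelPrime.1 ((Nat.coprime_primes (hAux i hi).1 (hAux j hj).1).2 hij)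
  set r₀ := matRes ρbar bb with hr₀
  have hr : GaloisFactorsThroughFiniteLevel r₀ := by
    obtain ⟨K, hK, hK'⟩ := ρbar.factorsThroughFiniteLevel
    refine ⟨K, hK, fun g hg => ?_⟩
    show LinearMap.toMatrixAlgEquiv bb (ρbar.ρ g) = 1
    rw [hK' g hg, map_one]
  have hone : ∀ g, ρbar.ρ g = 1 → r₀ g = 1 := fun g hg => by
    show LinearMap.toMatrixAlgEquiv bb (ρbar.ρ g) = 1
    rw [hg, map_one]
  let T : Finset ℕ := Finset.univ.image vT
  let ST : Finset ℕ := S₀.filter Nat.Prime ∪ (insert p R ∪ T ∪ Aux)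
  have hbarT : ∀ v, ∀ A : ValuationSubring Q̄, A.LiesOverPrime (vT v) →
      (∀ σ ∈ A.inertiaSubgroupIn ℚ, ρbar.ρ σ = 1) ∧
        ∀ F : Gal, A.IsFrobeniusAt F (vT v) → ∃ e : ResidueField O, ρbar.ρ F = e • 1 :=
    fun v A hA => ⟨hunr _ (hvT v).1 (hvT v).2.2.2 (hvT v).2.2.1 A hA,
      fun F hF => hscal _ (hvT v).1 (hvT v).2.1 (hvT v).2.2.1 (hvT v).2.2.2 A hA F hF⟩
  obtain ⟨r, hr'⟩ := hcore (ResidueField O) p hp2 r₀ hr hTW
    (fun σ m hm => (LinearMap.det_toMatrix bb _).trans (hdetbar σ m hm))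
    (insert p R) T ST (Finset.mem_insert_self p R)
    (fun x hx => Finset.mem_union_right _ (Finset.mem_union_left _ (Finset.mem_union_left _ hx)))
    (fun x hx => Finset.mem_union_right _ (Finset.mem_union_left _ (Finset.mem_union_right _ hx)))
    (by
      rw [Finset.disjoint_left]
      intro q hq hqT
      obtain ⟨v, -, rfl⟩ := Finset.mem_image.1 hqT
      rcases Finset.mem_insert.1 hq with h | h
      · exact (hvT v).2.2.1 h
      · exact (hvT v).2.2.2 h)
    (by
      intro q hq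
      simp only [ST, Finset.mem_union, Finset.mem_filter, Finset.mem_insert] at hq
      rcases hq with ⟨-, h⟩ | (((h | h) | h) | h)
      · exact h
      · exact h ▸ hpp
      · exact (hR q h).1
      · obtain ⟨v, -, rfl⟩ := Finset.mem_image.1 h
        exact (hvT v).1
      · exact (hAux q h).1)
    (fun q hq hqS A hA σ hσ => by
      simp only [Finset.mem_insert, not_or] at hqS
      exact hone σ (hunr q hq hqS.2 hqS.1 A hA σ hσ))
    (fun q hq hqp _ => by
      have hqR : q ∈ R := (Finset.mem_insert.1 hq).resolve_left hqp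
      have hqpr : q.Prime := (hR q hqR).1
      refine ⟨fun τ hτ => ⟨?_, ?_⟩, ?_⟩
      · rw [← hbarI q hqpr hqp _ (CFT.Local.padicPlace_liesOverPrime q) τ hτ,
          LinearMap.trace_eq_matrix_trace _ bb]
        rfl
      · refine (LinearMap.det_toMatrix bb _).trans ((hdetbar τ 1 fun μ hμ => ?_).trans Nat.cast_one)
        rw [pow_one]
        exact Arith.inertia_root (CFT.Local.padicPlace_liesOverPrime q) hqpr hτ hμ
          fun h => hqp ((Nat.prime_dvd_prime_iff_eq hqpr hpp).1 h)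
      · obtain ⟨τ, hτ, hne⟩ := (hR q hqR).2.2 _ (CFT.Local.padicPlace_liesOverPrime q)
        refine ⟨τ, hτ, fun h => hne ((LinearMap.toMatrixAlgEquiv bb).injective ?_)⟩
        rw [map_one]
        exact h)
    (fun v hv _ g hg => by
      obtain ⟨w, -, rfl⟩ := Finset.mem_image.1 hv
      obtain ⟨F, hF⟩ := Arith.exists_isFrobeniusAt (CFT.Local.padicPlace_liesOverPrime (vT w))
        (hvT w).1
      obtain ⟨e, he⟩ := (hbarT w _ (CFT.Local.padicPlace_liesOverPrime (vT w))).2 F hF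
      refine Assembly.exists_smul_one_of_decomposition hr
        (fun g hg => hone g ((hbarT w _ (CFT.Local.padicPlace_liesOverPrime (vT w))).1 g hg)) hF
        (e := e) ?_ hg
      show LinearMap.toMatrixAlgEquiv bb (ρbar.ρ F) = e • 1
      rw [he, map_smul, map_one])
  -- the constants
  have h2k : (2 : ResidueField O) ≠ 0 := hTW.two
  have h2O : IsUnit (2 : O) := by
    by_contra h
    exact h2k (by rw [← map_ofNat (residue O) 2, (residue_eq_zero_iff _).2 h])
  obtain ⟨c, hc⟩ := h2O.exists_right_inv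
  have hζp : ζ ^ p = 1 := hζ.pow_eq_one
  set ζi : O := ζ ^ (p - 1)
  have hζi : ζ * ζi = 1 := by rw [← pow_succ', Nat.sub_add_cancel (by omega), hζp]
  have hζne : ζ ≠ ζi := fun h => by
    have h2 : ζ ^ 2 = 1 := by rw [sq]; nth_rw 2 [h]; exact hζi
    exact absurd (Nat.le_of_dvd two_pos ((hζ.pow_eq_one_iff_dvd 2).1 h2)) (by omega)
  obtain ⟨π, hπ⟩ := IsDiscreteValuationRing.exists_irreducible O
  have hπm : maximalIdeal O = Ideal.span {π} := hπ.maximalIdeal_eq
  set δ : V → O := fun _ => c * (ζ - ζi)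
  set g := r - 3 * Fintype.card V
  set B := 2 ^ (r + 1) * Module.finrank ℂ (CuspForm (Gamma0 M₁) 2)
  -- a level for each `n`
  have key : ∀ n, 3 * Fintype.card V ≤ r ∧
      Nonempty (PatchLevel δ (frobRel (g := g) c v₀ (vT v₀)) π p r B n) := by
    intro n
    obtain ⟨qv, hqinj, hqv, hdist, hcoreAt⟩ := hr' n
    have hqp : ∀ i, qv i ≠ p := fun i h => (hqv i).2.1 (Finset.mem_union_right _
      (Finset.mem_union_left _ (Finset.mem_union_left _ (h ▸ Finset.mem_insert_self p R))))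
    have hqR : ∀ i, qv i ∉ R := fun i h => (hqv i).2.1 (Finset.mem_union_right _
      (Finset.mem_union_left _ (Finset.mem_union_left _ (Finset.mem_insert_of_mem h))))
    have hqA : ∀ i, qv i ∉ Aux := fun i h => (hqv i).2.1
      (Finset.mem_union_right _ (Finset.mem_union_right _ h))
    have hqM : ∀ i, ¬ qv i ∣ M₀ := fun i h => (hqv i).2.1
      (Finset.mem_union_left _ (Finset.mem_filter.2 ⟨hS₀ _ (hqv i).1 h, (hqv i).1⟩))
    have hqM₁ : ∀ i, ¬ qv i ∣ M₁ := fun i h => by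
      rcases (hqv i).1.dvd_mul.1 h with h | h
      · exact hqM i h
      · obtain ⟨a, ha, h⟩ := (Prime.dvd_finsetProd_iff (hqv i).1.prime _).1 h
        exact hqA i (by rwa [(Nat.prime_dvd_prime_iff_eq (hqv i).1 (hAux a ha).1).1 h])
    set L := M₁ * ∏ i, qv i with hLdef
    have hLq : ∀ q : ℕ, q.Prime → q ∣ L → q ∣ M₀ ∨ q ∈ Aux ∨ ∃ i, qv i = q := fun q hq h => by
      rcases hq.dvd_mul.1 h with h | h
      · rcases hq.dvd_mul.1 h with h | h
        · exact Or.inl h
        · obtain ⟨a, ha, h⟩ := (Prime.dvd_finsetProd_iff hq.prime _).1 h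
          exact Or.inr (Or.inl (by rwa [(Nat.prime_dvd_prime_iff_eq hq (hAux a ha).1).1 h]))
      · obtain ⟨i, -, hi⟩ := (Prime.dvd_finsetProd_iff hq.prime _).1 h
        exact Or.inr (Or.inr ⟨i, ((Nat.prime_dvd_prime_iff_eq hq (hqv i).1).1 hi).symm⟩)
    have hM₀L : M₀ ∣ L := dvd_mul_of_dvd_left (dvd_mul_right M₀ _) _
    have hL : Squarefree L := by
      rw [hLdef, Nat.squarefree_mul (Nat.coprime_prod_right_iff.2 fun i _ =>
        (Nat.Prime.coprime_iff_not_dvd (hqv i).1).2 (hqM₁ i) |>.symm)]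
      refine ⟨hM₁, Finset.squarefree_prod_of_pairwise_isCoprime ?_ fun i _ =>
        (hqv i).1.squarefree⟩
      intro i _ j _ hij
      exact Nat.coprime_iff_isRelPrime.1
        ((Nat.coprime_primes (hqv i).1 (hqv j).1).2 (hqinj.ne hij))
    have : NeZero L := ⟨hL.ne_zero⟩
    set S := S₀ ∪ Aux ∪ Finset.univ.image qv
    have hS₀S : ∀ {q}, q ∈ S₀ → q ∈ S := fun h =>
      Finset.mem_union_left _ (Finset.mem_union_left _ h)
    have hS : ∀ q : ℕ, q.Prime → q ∣ L → q ∈ S := fun q hq h => by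
      rcases hLq q hq h with h | h | ⟨i, hi⟩
      · exact hS₀S (hS₀ q hq h)
      · exact Finset.mem_union_left _ (Finset.mem_union_right _ h)
      · exact Finset.mem_union_right _ (Finset.mem_image.2 ⟨i, Finset.mem_univ _, hi⟩)
    have hlow : ∀ (M : ℕ) (f : CuspForm (Gamma0 M) 2), f.IsNewform → M ∣ L →
        IsCongruentForm S abar f → ∀ i, ¬ qv i ∣ M := fun M f hf hML hcf i =>
      Assembly.not_dvd_level_of_distinct hdetbar bb hspecial (hqv i).1
        ((dvd_pow_self p (Nat.succ_ne_zero n)).trans (hqv i).2.2) (hdist i) hf hcf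
        (hL.squarefree_of_dvd hML)
    have hlow₀ : ∀ (M : ℕ) (f : CuspForm (Gamma0 M) 2), f.IsNewform → M ∣ L →
        IsCongruentForm S abar f → M ∣ M₀ := fun M f hf hML hcf => by
      have hMsq : Squarefree M := hL.squarefree_of_dvd hML
      have : NeZero M := ⟨hMsq.ne_zero⟩
      have hcop : M.Coprime (∏ i, qv i) := Nat.coprime_prod_right_iff.2 fun i _ =>
        ((Nat.Prime.coprime_iff_not_dvd (hqv i).1).2 (hlow M f hf hML hcf i)).symm
      have hcop' : M.Coprime (∏ a ∈ Aux, a) := Nat.coprime_prod_right_iff.2 fun a ha =>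
        ((Nat.Prime.coprime_iff_not_dvd (hAux a ha).1).2 fun h => by
          obtain ⟨A, hA⟩ := Arith.exists_liesOverPrime (hAux a ha).1
          obtain ⟨F, hF⟩ := Arith.exists_isFrobeniusAt hA (hAux a ha).1
          exact (hAux a ha).2.2.2.2 A hA F hF (hspecial S M f hf hcf a (hAux a ha).1
            (hAux a ha).2.1 h (hsq hMsq (hAux a ha).1) A hA F hF)).symm
      exact hcop'.dvd_of_dvd_mul_right (hcop.dvd_of_dvd_mul_right hML)
    have hnclv : ∀ v : ℕ, v.Prime → v ∣ M₀ →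
        (∀ (S : Finset ℕ) (M : ℕ), M ∣ M₀ → IsCongruentLevel S abar M → v ∣ M) →
        ¬ IsCongruentLevel S abar (L / v) := by
      intro v hv hvM hvmin h
      have hd : v ∣ L := hvM.trans hM₀L
      obtain ⟨M, hMd, f, hf, hcf⟩ := Assembly.exists_newform_congruent
        ((Nat.div_ne_zero_iff_of_dvd hd).2 ⟨hL.ne_zero, hv.ne_zero⟩)
        (fun q hq h => hS q hq (h.trans (Nat.div_dvd_of_dvd hd))) h
      have hML : M ∣ L := hMd.trans (Nat.div_dvd_of_dvd hd)
      have hvM' : v ∣ M := hvmin S M (hlow₀ M f hf hML hcf) ⟨f, hcf⟩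
      exact hv.not_isUnit (hL v ((Nat.dvd_div_iff_mul_dvd hd).1 (hvM'.trans hMd)))
    have hncl : ¬ IsCongruentLevel S abar (L / vT v₀) :=
      hnclv _ (hvT v₀).1 (hvT v₀).2.1 fun S M h1 h2 =>
        hmin S M h1 h2 _ (hvT v₀).1 (hvT v₀).2.1 (hvT v₀).2.2.1 (hvT v₀).2.2.2
    have hw : GammaH.HasSTWeights O L := by
      by_cases h3 : p = 3
      · obtain ⟨r₁, r₂, h1, h2, hne12, h13, h23⟩ := hAuxw h3
        exact GammaH.hasSTWeights_of_dvd (hAux r₁ h1).1 (hAux r₂ h2).1 hne12 h13 h23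
          (dvd_mul_of_dvd_left (dvd_mul_of_dvd_right (Finset.dvd_prod_of_mem _ h1) _) _)
          (dvd_mul_of_dvd_left (dvd_mul_of_dvd_right (Finset.dvd_prod_of_mem _ h2) _) _)
      · have h4 : p ≠ 4 := fun h => absurd (h ▸ hpp) (by norm_num)
        exact GammaH.hasSTWeights_of_five_le (p := p) (by omega) L
    have hHex : ∀ ψ : (ZMod L)ˣ →* Assembly.LevelGroup V p r n, Function.Surjective ψ →
        ∃ H : HeckeModule L ψ S abar, 0 < H.d ∧ H.d ≤ B := by
      intro ψ hψ
      obtain ⟨H, hiff, -, hbd⟩ := GammaH.congruent_rank_bound_of_weights hp2 hw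
        (Assembly.isPGroup_levelGroup p n) hψ hL hS (hEis S)
      refine ⟨H, hiff.2 ?_, ?_⟩
      · obtain ⟨hf₀, φ₀, hφ₀⟩ := hcg₀
        obtain ⟨h, hh, hhg⟩ := ConductorLevel.exists_raise hL (hM'.trans hM₀L) hf₀
        exact ⟨h, hh, φ₀, fun ℓ hℓ hℓS a ha => hφ₀ ℓ hℓ (fun h' => hℓS (hS₀S h')) a
          (ha.trans (hhg ℓ hℓ fun hd => hℓS (hS ℓ hℓ hd)))⟩
      · refine (hbd M₁ (Finset.univ.image qv) ?_ ?_ ?_).trans (le_of_eq ?_)
        · rw [Finset.prod_image fun a _ b _ h => hqinj h]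
        · intro q hq
          obtain ⟨i, -, rfl⟩ := Finset.mem_image.1 hq
          exact (hqv i).1
        · rintro M f hf hML ⟨q, hq, hqf⟩ hcf
          obtain ⟨i, -, rfl⟩ := Finset.mem_image.1 hq
          exact hlow M f hf hML hcf i hqf
        · rw [Finset.card_image_of_injective _ hqinj, Finset.card_univ, Fintype.card_fin]
    refine Assembly.exists_patchLevel_of_heckeModule_general (π := π) hp hp2 hc hζi hζp hζne hπm
      (fun M _ => Assembly.model M p) (fun _ _ _ _ _ _ g => InertiaTW.traceInertia p _ _ _ g)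
      (fun N _ => Assembly.congruenceProperty N p)
      (fun M v _ => Assembly.localModelInput M p v)
      (fun M _ N => Assembly.nonempty_galOrder_model M p N) habs hdetbar hbarI bb
      hTW.split (hS₀S hpS)
      (fun ℓ hℓ hℓS => hbar ℓ hℓ fun h => hℓS (hS₀S h)) vT qv hL hS (R := R)
      (fun q hq => ⟨(hR q hq).1, (hRM q hq).trans hM₀L, (hR q hq).2.1⟩)
      ?_ ?_ ?_ ?_ ?_ ?_ ?_
      (fun v => hv1 _ (hvT v).1 (hvT v).2.1 (hvT v).2.2.1 (hvT v).2.2.2)
      (fun i => (hqv i).2.2) hbarT hcoreAt v₀ hncl hHex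
    · rintro (v | i)
      · exact (hvT v).1
      · exact (hqv i).1
    · rintro (v | i)
      · exact (hvT v).2.1.trans hM₀L
      · exact dvd_mul_of_dvd_right (Finset.dvd_prod_of_mem _ (Finset.mem_univ i)) _
    · rintro (a | a) (b | b) h
      · exact congrArg Sum.inl (Subtype.ext h)
      · exact absurd ((show vT a = qv b from h) ▸ (hvT a).2.1) (hqM b)
      · exact absurd ((show qv a = vT b from h).symm ▸ (hvT b).2.1) (hqM a)
      · exact congrArg Sum.inr (hqinj h)
    · rintro (v | i)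
      · exact (hvT v).2.2.1
      · exact hqp i
    · rintro (v | i)
      · exact (hvT v).2.2.2
      · exact hqR i
    · intro q hq hqL
      rcases hLq q hq hqL with h | h | ⟨i, hi⟩
      · by_cases hqR' : q ∈ R
        · exact Or.inl hqR'
        by_cases hqp' : q = p
        · exact Or.inr (Or.inl hqp')
        · exact Or.inr (Or.inr (Or.inl ⟨Sum.inl ⟨q, Finset.mem_sdiff.2
            ⟨Nat.mem_primeFactors.2 ⟨hq, h, hM.ne_zero⟩, by simp [hqp', hqR']⟩⟩, rfl⟩))
      · exact Or.inr (Or.inr (Or.inr (hAux q h).2.2.2.2))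
      · exact Or.inr (Or.inr (Or.inl ⟨Sum.inr i, hi⟩))
    · intro hpL
      have hpM : p ∣ M₀ := by
        rcases hLq p hpp hpL with h | h | ⟨i, hi⟩
        · exact h
        · exact absurd rfl (hAux p h).2.1
        · exact absurd hi (hqp i)
      exact ⟨(hordp hpM).1, hnclv p hpp hpM (hordp hpM).2⟩
  -- the coefficient of the square
  have hres1 : residue O ζ = 1 := by
    have h0 : (residue O ζ - 1) ^ p = 0 := by
      rw [sub_pow_char, ← map_pow, hζp, map_one, one_pow, sub_self]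
    exact sub_eq_zero.1 ((pow_eq_zero_iff hpp.ne_zero).1 h0)
  have hδm : c * (ζ - ζi) ∈ maximalIdeal O := by
    refine Ideal.mul_mem_left _ _ ((residue_eq_zero_iff _).1 ?_)
    rw [map_sub, map_pow, hres1, one_pow, sub_self]
  have h2norm : ‖(2 : ℂ_[p])‖ = 1 := by
    have h1 : (2 : ℂ_[p]) * (φ c : ℂ_[p]) = 1 := by
      have := congrArg ((ball1 ℂ_[p]).subtype.comp φ) hc
      rwa [map_mul, map_ofNat, map_one] at this
    have h2 : ‖(φ c : ℂ_[p])‖ ≤ 1 := (φ c).2
    have h3 : ‖(2 : ℂ_[p])‖ ≤ 1 := by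
      simpa using IsUltrametricDist.norm_natCast_le_one ℂ_[p] 2
    have h4 := congrArg norm h1
    rw [norm_mul, norm_one] at h4
    nlinarith [norm_nonneg (2 : ℂ_[p]), norm_nonneg (φ c : ℂ_[p])]
  let d : Coord V (Fin g) →₀ ℕ := Finsupp.single (Sum.inl (v₀, 1, 0)) 2
  have hcoef := Assembly.coeff_mem_maximalIdeal_of_patchLevels φ hφinj hφ h2norm
    (δ := δ)
    (fun _ => mul_ne_zero (fun h => by rw [h, mul_zero] at hc; exact zero_ne_one hc)
      (sub_ne_zero.2 hζne))
    (fun _ => hδm) hpp hp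
    (r := r) (by rw [Nat.card_eq_fintype_card]; exact (Nat.add_sub_cancel' (key 0).1).symm)
    hπ (fun n => (key n).2) (d := d)
    (fun v l => Finsupp.single_eq_of_ne (by simp))
  have hone' : MvPowerSeries.coeff d (frobRel (g := g) c v₀ (vT v₀)) = 1 := by
    have hne : d ≠ Finsupp.single (Sum.inl (v₀, 1, 1)) 1 + Finsupp.single (Sum.inl (v₀, 1, 2)) 1 := by
      intro h
      have := DFunLike.congr_fun h (Sum.inl (v₀, 1, 0))
      simp [d] at this
    have hd0 : d ≠ 0 := by simp [d]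
    simp only [frobRel, map_add, map_sub, MvPowerSeries.coeff_C, if_neg hd0, sub_zero]
    rw [MvPowerSeries.X_pow_eq, MvPowerSeries.coeff_monomial, if_pos rfl, MvPowerSeries.X_def,
      MvPowerSeries.X_def, MvPowerSeries.monomial_mul_monomial, MvPowerSeries.coeff_monomial,
      if_neg hne, add_zero]
  rw [hone'] at hcoef
  exact (maximalIdeal.isMaximal O).ne_top ((Ideal.eq_top_iff_one _).2 hcoef)


/-- **Lowering away from `p`** from Mazur's principle and the tangent bound. -/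
theorem lowerQInput_of_mazur (hMz : MazurGenInput) (hcore : Assembly.TangentCoreInput) :
    LowerQInput :=
  lowerQInput_of_inputs hMz hcore scalarPlacesInput

end Fermat.Agent.RT.Lift.Lower

end
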