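import Fermat.Agent.RT.Lift.Lower.Residual
import Fermat.Agent.EC.Rep.Local.StrictOrdinary

/-!
# The residual representation at a multiplicative prime `p` is ordinary
-/

set_option autoImplicit false

noncomputable section

open WeierstrassCurve Module
open scoped TensorProduct

namespace Fermat.Agent.RT.Lift.Lower

section Line

variable {k₀ k V : Type} [Field k₀] [Field k] [Algebra k₀ k] [AddCommGroup V] [Module k₀ V]
  (b : Basis (Fin 2) k₀ V)

theorem tmul_mem_line (c : k) {w : V} (hw : w ∈ k₀ ∙ b 0) :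
    c ⊗ₜ[k₀] w ∈ k ∙ b.baseChange k 0 := by
  obtain ⟨a, rfl⟩ := Submodule.mem_span_singleton.mp hw
  refine Submodule.mem_span_singleton.mpr ⟨algebraMap k₀ k a * c, ?_⟩
  rw [Basis.baseChange_apply, TensorProduct.smul_tmul', smul_eq_mul, mul_one,
    ← TensorProduct.smul_tmul, Algebra.smul_def]

theorem baseChange_mem_line {f : V →ₗ[k₀] V} (hf : ∀ v ∈ k₀ ∙ b 0, f v ∈ k₀ ∙ b 0)
    {v : k ⊗[k₀] V} (hv : v ∈ k ∙ b.baseChange k 0) :
    f.baseChange k v ∈ k ∙ b.baseChange k 0 := by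
  obtain ⟨c, rfl⟩ := Submodule.mem_span_singleton.mp hv
  rw [LinearMap.map_smul]
  refine Submodule.smul_mem _ c ?_
  rw [Basis.baseChange_apply b (i := 0) (S := k), LinearMap.baseChange_tmul]
  have := tmul_mem_line b (1 : k) (hf _ (Submodule.mem_span_singleton_self _))
  rwa [Basis.baseChange_apply] at this

theorem baseChange_sub_mem_line {f : V →ₗ[k₀] V} (hf : ∀ v, f v - v ∈ k₀ ∙ b 0)
    (v : k ⊗[k₀] V) : f.baseChange k v - v ∈ k ∙ b.baseChange k 0 := by
  induction v using TensorProduct.induction_on with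
  | zero => rw [(f.baseChange k).map_zero, sub_zero]; exact zero_mem _
  | tmul c w =>
    rw [LinearMap.baseChange_tmul, ← TensorProduct.tmul_sub]
    exact tmul_mem_line b c (hf w)
  | add x y hx hy => rw [map_add, add_sub_add_comm]; exact add_mem hx hy

end Line

/-- Residual ordinarity is stable under extension of the field. -/
theorem isOrdinaryAt_baseChange {k₀ k : Type} [Field k₀] [Field k] [Algebra k₀ k]
    (ρ : ResidualGaloisRep k₀) {p : ℕ}
    (h : (GaloisRepAdic.ofResidualGaloisRep ρ).IsOrdinaryAt p) :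
    (GaloisRepAdic.ofResidualGaloisRep (ρ.baseChange k)).IsOrdinaryAt p := by
  intro P hP
  obtain ⟨L, ⟨b₀, rfl⟩, hD, hI⟩ := h P hP
  exact ⟨_, ⟨(b₀.baseChange k : _), rfl⟩, fun σ hσ v hv => baseChange_mem_line b₀ (hD σ hσ) hv,
    fun σ hσ v => baseChange_sub_mem_line b₀ (hI σ hσ) v⟩

variable {W : WeierstrassCurve ℤ} {hΔ : W.Δ ≠ 0} {p : ℕ} [Fact p.Prime] {k : Type} [Field k]
  [Algebra (ZMod p) k]

/-- At a multiplicative odd `p` the residual representation over `k` is ordinary. -/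
theorem isOrdinaryAt_curveRho (hp2 : p ≠ 2) (hdvd : (p : ℤ) ∣ W.Δ) (hc₄ : ¬ (p : ℤ) ∣ W.c₄) :
    (GaloisRepAdic.ofResidualGaloisRep (curveRho W hΔ p k)).IsOrdinaryAt p :=
  isOrdinaryAt_baseChange _
    (EC.Rep.isStrictOrdinaryAt_residualRep hΔ hp2 hdvd hc₄).isOrdinaryAt

end Fermat.Agent.RT.Lift.Lower

end
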