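import Fermat.Agent.RT.Lift.Lower.Forms
import Fermat.Agent.Deform.Burnside

/-!
# Ramification of the residual representation of a curve against congruent levels
-/

set_option autoImplicit false

noncomputable section

open WeierstrassCurve Polynomial Module
open CongruenceSubgroup ModularFormClass
open scoped Matrix

namespace Fermat.Agent.RT.Lift.Lower

local notation "Q̄" => AlgebraicClosure ℚ
local notation "GQ" => AlgebraicClosure ℚ ≃ₐ[ℚ] AlgebraicClosure ℚ

/-- An element with the same traces as `1` against every element of an absolutely irreducible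
representation acts trivially. -/
theorem rho_eq_one_of_trace {k : Type} [Field k] (ρ : ResidualGaloisRep k)
    (habs : ρ.IsAbsolutelyIrreducible) {σ : GQ}
    (h : ∀ τ : GQ, LinearMap.trace k ρ.V (ρ.ρ (σ * τ)) = LinearMap.trace k ρ.V (ρ.ρ τ)) :
    ρ.ρ σ = 1 := by
  let b : Basis (Fin 2) k ρ.V := Module.finBasisOfFinrankEq k ρ.V ρ.finrank_eq
  let R : GQ → Matrix (Fin 2) (Fin 2) k := fun g => LinearMap.toMatrixAlgEquiv b (ρ.ρ g)
  have htr : ∀ g, LinearMap.trace k ρ.V (ρ.ρ g) = (R g).trace := fun g =>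
    LinearMap.trace_eq_matrix_trace k b _
  set D := R σ - 1 with hD
  have hall : ∀ X : Matrix (Fin 2) (Fin 2) k, (D * X).trace = 0 := by
    intro X
    have hX : X ∈ Submodule.span k (Set.range R) := by
      rw [show Submodule.span k (Set.range R) = ⊤ from Deform.span_matrix_eq_top ρ habs b]
      trivial
    induction hX using Submodule.span_induction with
    | mem X hX =>
      obtain ⟨τ, rfl⟩ := hX
      rw [hD, sub_mul, one_mul, Matrix.trace_sub, sub_eq_zero,
        show R σ * R τ = R (σ * τ) by simp only [R, map_mul], ← htr, ← htr]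
      exact h τ
    | zero => simp
    | add x y _ _ hx hy => simp [mul_add, Matrix.trace_add, hx, hy]
    | smul c x _ hx => simp [Matrix.trace_smul, hx]
  have hD0 : D = 0 := Matrix.ext fun i j => by
    have := hall (Matrix.single j i 1)
    simpa [Matrix.trace_mul_single] using this
  apply (LinearMap.toMatrixAlgEquiv b).injective
  rw [map_one]
  exact sub_eq_zero.1 hD0

variable {W : WeierstrassCurve ℤ} (hΔ : W.Δ ≠ 0) {p : ℕ} [Fact p.Prime]

/-- The residual representation is unramified at primes not dividing `p` or a modular level. -/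
theorem isUnramifiedAt_of_not_dvd
    (hD : ∀ (N p : ℕ) [NeZero N] [Fact p.Prime], Nonempty (GaloisReps.HeckeGaloisModel N p))
    (k : Type) [Field k] [Algebra (ZMod p) k]
    (hp2 : p ≠ 2) (hirr : W.ModRepIsIrreducible p) {M : ℕ} (hM : M ≠ 0)
    (hmod : W.IsResiduallyModularOfLevel p M) {q : ℕ} (hq : q.Prime) (hqp : q ≠ p)
    (hqM : ¬ q ∣ M) : (curveRho W hΔ p k).IsUnramifiedAt q := by
  classical
  have hpk : CharP k p := charP_of_injective_algebraMap (algebraMap (ZMod p) k).injective p
  let S : Finset ℕ := insert p (M.primeFactors ∪ W.Δ.natAbs.primeFactors)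
  obtain ⟨g, hg, φ, hφ⟩ := isCongruentLevel_of_isResiduallyModular (k := k) (S := S)
    (fun ℓ hℓ h => by
      simp only [S, Finset.mem_insert, Finset.mem_union, Nat.mem_primeFactors]
      rcases h with h | h | h
      · exact Or.inl h
      · exact Or.inr (Or.inl ⟨hℓ, h, hM⟩)
      · exact Or.inr (Or.inr ⟨hℓ, Int.natCast_dvd.mp h, Int.natAbs_ne_zero.mpr hΔ⟩)) hmod
  obtain ⟨ρ, -, hρ, hunr⟩ := charpoly_attached_eq (k := k) hΔ (p := p) hD hM hg φ S
    (fun ℓ hℓ hℓS a ha => hφ ℓ hℓ hℓS a ha)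
  intro A hA σ hσ
  refine rho_eq_one_of_trace _ (isAbsolutelyIrreducible_curveRho hp2 hirr) fun τ => ?_
  have hσ1 : ρ.ρ σ = 1 := hunr q hq (fun h => (hq.dvd_mul.1 h).elim hqM fun h' =>
    hqp ((Nat.prime_dvd_prime_iff_eq hq Fact.out).1 h')) A hA σ hσ
  have he : LinearMap.charpoly ((curveRho W hΔ p k).ρ (σ * τ)) =
      LinearMap.charpoly ((curveRho W hΔ p k).ρ τ) := by
    apply Polynomial.map_injective _ (algebraMap k (AlgebraicClosure k)).injective
    rw [← hρ, ← hρ, map_mul, hσ1, one_mul]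
  have h1 := congrArg (fun f => Polynomial.coeff f 1) he
  rw [EC.FrobTrace.charpoly_of_finrank_eq_two (curveRho W hΔ p k).finrank_eq,
    EC.FrobTrace.charpoly_of_finrank_eq_two (curveRho W hΔ p k).finrank_eq] at h1
  simpa [coeff_X_pow] using h1

/-- A ramified prime is ramified at every place over it. -/
theorem exists_inertia_ne_one_at {k : Type} [Field k] [Algebra (ZMod p) k] {q : ℕ} (hq : q.Prime)
    (h : ¬ (EC.Rep.residualRep W p hΔ).IsUnramifiedAt q) {B : ValuationSubring Q̄}
    (hB : B.LiesOverPrime q) :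
    ∃ σ ∈ B.inertiaSubgroupIn ℚ, (curveRho W hΔ p k).ρ σ ≠ 1 := by
  obtain ⟨A, hA, σ, hσ, hne⟩ := exists_inertia_ne_one (k := k) h
  obtain ⟨g, rfl⟩ := Arith.exists_smul_eq hA hB hq
  refine ⟨g * σ * g⁻¹, Arith.mem_inertia_smul_iff.2 hσ, fun h1 => hne ?_⟩
  have h2 : (curveRho W hΔ p k).ρ (g⁻¹ * (g * σ * g⁻¹) * g) = 1 := by
    rw [map_mul, map_mul, h1, mul_one, ← map_mul, inv_mul_cancel, map_one]
  rwa [show g⁻¹ * (g * σ * g⁻¹) * g = σ by group] at h2

end Fermat.Agent.RT.Lift.Lower

end
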