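import Fermat.Agent.RT.Lift.Lower.Reduce
import Fermat.Agent.RT.Lift.Lower.Special
import Fermat.Agent.RT.Lift.Lower.Ramified
import Fermat.Agent.RT.Lift.Lower.Ordinary
import Fermat.Agent.RT.Lift.Aux3
import Fermat.Agent.RT.Assembly.Bound
import Fermat.Agent.RT.Assembly.Coeff
import Fermat.Agent.CFT.TWPrimes.Residual

/-!
# Lowering away from `p` for a semistable curve

The exclusion of minimal levels with scalar Frobenius elements, deduced from its form for an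
arbitrary residual representation, and the input `LowerQInput` of the lifting argument.
-/

set_option autoImplicit false
set_option linter.style.haveILetI false

noncomputable section

open IsLocalRing Module Polynomial
open WeierstrassCurve
open CongruenceSubgroup ModularFormClass
open scoped WeierstrassCurve.Affine TensorProduct
open Fermat.Agent.Deform (matRes)

namespace Fermat.Agent.RT.Lift.Lower

local notation "Q̄" => AlgebraicClosure ℚ
local notation "GQ" => AlgebraicClosure ℚ ≃ₐ[ℚ] AlgebraicClosure ℚ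

/-- The patching statement for an arbitrary residual representation: no squarefree congruent level
is smallest at a nonempty set of places with scalar decomposition groups. -/
def ScalarPlacesInput : Prop := ∀ (O : Type) [CommRing O] [IsDomain O] [IsDiscreteValuationRing O]
  [IsAdicComplete (maximalIdeal O) O] [Finite (ResidueField O)] [CharZero O]
  (p : ℕ) [Fact p.Prime] [CharP (ResidueField O) p] (_hp2 : p ≠ 2)
  (_hp : (p : O) ∈ maximalIdeal O) (ζ : O) (_hζ : IsPrimitiveRoot ζ p)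
  (φ : O →+* Germ.ball1 ℂ_[p]) (_hφinj : Function.Injective φ)
  (_hφ : ∀ c ∈ maximalIdeal O, ‖(φ c : ℂ_[p])‖ < 1)
  (_hcore : Assembly.TangentCoreInput)
  (ρbar : ResidualGaloisRep (ResidueField O)) (_habs : ρbar.IsAbsolutelyIrreducible)
  (_hdetbar : ∀ (σ : GQ) (m : ℕ), (∀ μ : Q̄, μ ^ p = 1 → σ μ = μ ^ m) →
    LinearMap.det (ρbar.ρ σ) = (m : ResidueField O))
  (bb : Basis (Fin 2) (ResidueField O) ρbar.V)
  (_hTW : CFT.TWPrimes.TWHyp (matRes ρbar bb))
  (_hbarI : ∀ q : ℕ, q.Prime → q ≠ p → ∀ A : ValuationSubring Q̄, A.LiesOverPrime q →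
    ∀ σ ∈ A.inertiaSubgroupIn ℚ, LinearMap.trace (ResidueField O) ρbar.V (ρbar.ρ σ) = 2)
  (S₀ : Finset ℕ) (abar : ℕ → ResidueField O) (_hpS : p ∈ S₀) (_h2S : 2 ∈ S₀)
  (_hbar : Glue.HasCharpolys S₀ abar ρbar)
  (_hEis : ∀ S : Finset ℕ, ∃ ℓ : ℕ, ℓ.Prime ∧ ℓ ∉ S ∧ abar ℓ ≠ 1 + (ℓ : ResidueField O))
  (_hspecial : ∀ (S : Finset ℕ) (M : ℕ) [NeZero M] (g : CuspForm (Gamma0 M) 2), g.IsNewform →
    IsCongruentForm S abar g → ∀ q : ℕ, q.Prime → q ≠ p → q ∣ M → ¬ q ^ 2 ∣ M →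
    ∀ A : ValuationSubring Q̄, A.LiesOverPrime q → ∀ F : GQ, A.IsFrobeniusAt F q →
      LinearMap.trace (ResidueField O) ρbar.V (ρbar.ρ F) ^ 2 = ((q : ResidueField O) + 1) ^ 2)
  (R : Finset ℕ) (_hR : ∀ v ∈ R, v.Prime ∧ v ≠ p ∧ ∀ A : ValuationSubring Q̄, A.LiesOverPrime v →
    ∃ s ∈ A.inertiaSubgroupIn ℚ, ρbar.ρ s ≠ 1)
  (_hunr : ∀ q : ℕ, q.Prime → q ∉ R → q ≠ p → ρbar.IsUnramifiedAt q)
  (M₀ : ℕ) (_hM : Squarefree M₀) (_hS₀ : ∀ q : ℕ, q.Prime → q ∣ M₀ → q ∈ S₀)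
  (_hRM : ∀ v ∈ R, v ∣ M₀) (_hne : ∃ v, v.Prime ∧ v ∣ M₀ ∧ v ≠ p ∧ v ∉ R)
  (_hcong : IsCongruentLevel S₀ abar M₀)
  (_hmin : ∀ (S : Finset ℕ) (M : ℕ), M ∣ M₀ → IsCongruentLevel S abar M →
    ∀ v : ℕ, v.Prime → v ∣ M₀ → v ≠ p → v ∉ R → v ∣ M)
  (_hscal : ∀ v : ℕ, v.Prime → v ∣ M₀ → v ≠ p → v ∉ R → ∀ A : ValuationSubring Q̄,
    A.LiesOverPrime v → ∀ F : GQ, A.IsFrobeniusAt F v → ∃ e : ResidueField O, ρbar.ρ F = e • 1)
  (_haux : p = 3 → ∀ S : Finset ℕ, ∃ r : ℕ, r.Prime ∧ r ∉ S ∧ r % 3 = 2 ∧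
    ∀ A : ValuationSubring Q̄, A.LiesOverPrime r → ∀ F : GQ, A.IsFrobeniusAt F r →
      LinearMap.trace (ResidueField O) ρbar.V (ρbar.ρ F) ^ 2 ≠ ((r : ResidueField O) + 1) ^ 2)
  (_hordp : p ∣ M₀ → (GaloisRepAdic.ofResidualGaloisRep ρbar).IsOrdinaryAt p ∧
    ∀ (S : Finset ℕ) (M : ℕ), M ∣ M₀ → IsCongruentLevel S abar M → p ∣ M),
  False

theorem isResiduallyModular_of_congruentLevel {W : WeierstrassCurve ℤ} (hΔ : W.Δ ≠ 0) {p : ℕ}
    [Fact p.Prime] {k : Type} [Field k] [Algebra (ZMod p) k] {S : Finset ℕ} {M : ℕ}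
    (h : IsCongruentLevel S (curveAbar W k) M) : W.IsResiduallyModularOfLevel p M :=
  isResiduallyModular_of_congruent hΔ (fun N p _ _ => ⟨Assembly.model N p⟩) h

set_option maxHeartbeats 1600000 in
/-- **No scalar minimal level** from the patching statement. -/
theorem noScalarMinimalInput_of (hcore : Assembly.TangentCoreInput) (hsp : ScalarPlacesInput) :
    NoScalarMinimalInput := by
  classical
  intro p _ hp2 W hΔ hW hirr M hM hpW hmod hmin hscal v₀ hv₀ hv₀p hv₀M hv₀u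
  have hp : p.Prime := Fact.out
  obtain ⟨O, i1, i2, i3, i4, i5, i6, i7, hpO, ⟨ζ, hζ⟩, hquad, φ, hφinj, hφ⟩ :=
    Assembly.exists_coeff p
  let : Algebra (ZMod p) (ResidueField O) := ZMod.algebra _ p
  set ρ := curveRho W hΔ p (ResidueField O) with hρ
  have habs := isAbsolutelyIrreducible_curveRho (k := ResidueField O) (hΔ := hΔ) hp2 hirr
  have hsplit : ∀ σ : GQ, ∃ α β : ResidueField O, LinearMap.charpoly (ρ.ρ σ) =
      (X - C α) * (X - C β) := exists_split hquad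
  obtain ⟨bb⟩ : Nonempty (Basis (Fin 2) (ResidueField O) ρ.V) :=
    ⟨(Module.finBasisOfFinrankEq (ResidueField O) ρ.V ρ.finrank_eq)⟩
  have h2k : (2 : ResidueField O) ≠ 0 := fun h => by
    have h2 : ((2 : ℕ) : ResidueField O) = 0 := by rw [Nat.cast_two, h]
    rw [CharP.cast_eq_zero_iff (ResidueField O) p] at h2
    exact hp2 ((Nat.prime_dvd_prime_iff_eq hp Nat.prime_two).1 h2)
  have hTW : CFT.TWPrimes.TWHyp (matRes ρ bb) := by
    refine CFT.TWPrimes.twHyp_matRes ρ bb h2k habs hsplit fun G hG V hV => ?_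
    let e : (ρ.baseChange (ResidueField O)).V ≃ₗ[ResidueField O] ρ.V :=
      TensorProduct.lid (ResidueField O) ρ.V
    have he : ∀ (σ : GQ) w, e ((ρ.baseChange (ResidueField O)).ρ σ w) = ρ.ρ σ (e w) := fun σ w =>
      LinearMap.congr_fun (show e.toLinearMap ∘ₗ (ρ.ρ σ).baseChange (ResidueField O) =
        ρ.ρ σ ∘ₗ e.toLinearMap by ext y; simp [e]) w
    rcases EC.Rep.residualRep_indexTwo_irreducible (hΔ := hΔ) hW hp2 hirr
      (ResidueField O) G hG (V.map e.toLinearMap) (fun σ hσ x hx => by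
        obtain ⟨w, hw, rfl⟩ := hx
        exact ⟨_, hV σ hσ w hw, he σ w⟩) with h | h
    · exact Or.inl (Submodule.map_injective_of_injective e.injective
        (h.trans (Submodule.map_bot _).symm))
    · exact Or.inr (Submodule.map_injective_of_injective e.injective
        (h.trans (by rw [Submodule.map_top, LinearEquiv.range]; rfl)))
  let S₀ : Finset ℕ := insert 2 (insert p (M.primeFactors ∪ W.Δ.natAbs.primeFactors))
  have hS₀ : ∀ ℓ : ℕ, ℓ.Prime → (ℓ = p ∨ ℓ ∣ M ∨ (ℓ : ℤ) ∣ W.Δ) → ℓ ∈ S₀ := by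
    intro ℓ hℓ h
    simp only [S₀, Finset.mem_insert, Finset.mem_union, Nat.mem_primeFactors]
    rcases h with h | h | h
    · exact Or.inr (Or.inl h)
    · exact Or.inr (Or.inr (Or.inl ⟨hℓ, h, hM.ne_zero⟩))
    · exact Or.inr (Or.inr (Or.inr ⟨hℓ, Int.natCast_dvd.mp h, Int.natAbs_ne_zero.mpr hΔ⟩))
  let R : Finset ℕ := M.primeFactors.filter fun v =>
    v ≠ p ∧ ¬ (EC.Rep.residualRep W p hΔ).IsUnramifiedAt v
  have hR : ∀ v, v ∈ R ↔ (v.Prime ∧ v ∣ M) ∧ v ≠ p ∧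
      ¬ (EC.Rep.residualRep W p hΔ).IsUnramifiedAt v := fun v => by
    simp only [R, Finset.mem_filter, Nat.mem_primeFactors]
    exact ⟨fun h => ⟨⟨h.1.1, h.1.2.1⟩, h.2⟩, fun h => ⟨⟨h.1.1, h.1.2, hM.ne_zero⟩, h.2⟩⟩
  have heq : ∀ (S : Finset ℕ) (d : ℕ), d ∣ M →
      IsCongruentLevel S (curveAbar W (ResidueField O)) d → d = M := fun S d hd h =>
    hmin d hd (isResiduallyModular_of_congruentLevel hΔ h)
  refine hsp O p hp2 hpO ζ hζ φ hφinj hφ hcore ρ habs (fun σ m hm => det_curveRho hm) bb hTW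
    (fun q hq hqp A hA σ hσ => trace_curveRho_inertia hW hq hqp hA hσ)
    S₀ (curveAbar W (ResidueField O)) (hS₀ p hp (Or.inl rfl)) (Finset.mem_insert_self 2 _)
    (fun ℓ hℓ hℓS A hA s hs => charpoly_curveRho_frobenius hℓ
      (fun h => hℓS (hS₀ ℓ hℓ (Or.inr (Or.inr h)))) (fun h => hℓS (hS₀ ℓ hℓ (Or.inl h))) hA hs)
    (exists_curveAbar_ne hp2 hΔ hirr) ?_ R ?_ ?_ M hM
    (fun q hq h => hS₀ q hq (Or.inr (Or.inl h))) (fun v hv => ((hR v).1 hv).1.2)
    ⟨v₀, hv₀, hv₀M, hv₀p, fun h => ((hR v₀).1 h).2.2 hv₀u⟩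
    (isCongruentLevel_of_isResiduallyModular hS₀ hmod)
    (fun S d hd h v _ hvM _ _ => (heq S d hd h).symm ▸ hvM)
    ?_ ?_ (fun hpM => ⟨isOrdinaryAt_curveRho hp2 (hpW hpM) (hW p hp (hpW hpM)),
      fun S d hd h => (heq S d hd h).symm ▸ hpM⟩)
  · intro S N _ g hg hcg q hq hqp hqN hsq A hA σ hσ
    exact trace_sq_of_special hΔ hg hcg hq hqp hqN (Assembly.model N p)
      (Assembly.localModelInput N p q hq hqp hqN hsq).2 hA hσ
  · intro v hv
    obtain ⟨⟨hv', -⟩, hvp, hvr⟩ := (hR v).1 hv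
    exact ⟨hv', hvp, fun A hA => exists_inertia_ne_one_at hΔ hv' hvr hA⟩
  · intro q hq hqR hqp
    by_cases hqM : q ∣ M
    · exact isUnramifiedAt_curveRho (by_contra fun h => hqR ((hR q).2 ⟨⟨hq, hqM⟩, hqp, h⟩))
    · exact isUnramifiedAt_of_not_dvd hΔ (fun N p _ _ => ⟨Assembly.model N p⟩) _ hp2 hirr
        hM.ne_zero hmod hq hqp hqM
  · intro v hv hvM hvp hvR A hA F hF
    obtain ⟨c, hc⟩ := hscal v hv hvp hvM (by_contra fun h => hvR ((hR v).2 ⟨⟨hv, hvM⟩, hvp, h⟩))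
      A hA F hF
    refine ⟨algebraMap (ZMod p) (ResidueField O) c, ?_⟩
    show LinearMap.baseChange (ResidueField O) ((EC.Rep.residualRep W p hΔ).ρ F) = _
    rw [hc, LinearMap.baseChange_smul, LinearMap.baseChange_one, ← algebraMap_smul (ResidueField O) c]
    rfl
  · intro h3 S
    obtain ⟨r, hr, hrN⟩ := exists_auxLevel (p := p) (Or.inl h3) hΔ hW hirr
      (∏ x ∈ S.filter Nat.Prime, x)
      (Finset.prod_ne_zero_iff.2 fun x hx => (Finset.mem_filter.1 hx).2.ne_zero)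
    rcases hr with ⟨h, -⟩ | ⟨hr, hr3, hrp, hgood, hne⟩
    · exact absurd h3 h
    refine ⟨r, hr, fun hrS => ?_, hr3, fun A hA F hF h => hne ?_⟩
    · exact (hr.coprime_iff_not_dvd.1 hrN)
        (Finset.dvd_prod_of_mem _ (Finset.mem_filter.2 ⟨hrS, hr⟩))
    · obtain ⟨htr, -⟩ := ConductorLevel.trace_det_of_charpoly ρ.finrank_eq
        (charpoly_curveRho_frobenius hr hgood hrp hA hF)
      rw [htr] at h
      rw [← ZMod.intCast_zmod_eq_zero_iff_dvd]
      apply (algebraMap (ZMod p) (ResidueField O)).injective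
      rw [map_intCast, map_zero]
      push_cast
      rw [sub_eq_zero]
      exact h

/-- **Lowering away from `p`** from Mazur's principle, the tangent bound and the patching
statement. -/
theorem lowerQInput_of_inputs (hMz : MazurGenInput) (hcore : Assembly.TangentCoreInput)
    (hsp : ScalarPlacesInput) : LowerQInput := by
  intro p _ hp2 W hΔ hW _ _ hirr M q hq hqp hqM _ hM hpW hunr hres
  exact lower_of hMz (noScalarMinimalInput_of hcore hsp) hp2 hΔ hW hirr hq hqp hqM hM hpW hunr hres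

end Fermat.Agent.RT.Lift.Lower

end
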